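import Fermat.Agent.FF.Along
import Fermat.Prelude.Def_AlgebraicCurve_IsCurveOver
import Fermat.Prelude.Def_AlgebraicCurve_CanonicalDivisor
import Mathlib.RingTheory.Unramified.Finite
import Mathlib.FieldTheory.Perfect
import Mathlib.RingTheory.Kaehler.Basic

/-!
# Differentials of a function field in characteristic zero
-/

set_option autoImplicit false

noncomputable section

open AlgebraicCurve Polynomial IntermediateField KaehlerDifferential
open scoped Classical

namespace Fermat.Agent.FF

set_option linter.unusedSectionVars false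

variable {K F : Type*} [Field K] [Field F] [Algebra K F] [IsFunctionField K F]

theorem span_D_eq_top_of_isSeparable {x : F} [Algebra.IsSeparable K⟮x⟯ F] :
    Submodule.span F {KaehlerDifferential.D K F x} = (⊤ : Submodule F Ω[F⁄K]) := by
  set S := Submodule.span F {KaehlerDifferential.D K F x} with hS
  have haeval : ∀ p : K[X], KaehlerDifferential.D K F (aeval x p) ∈ S := fun p => by
    rw [Derivation.map_aeval]
    exact Submodule.smul_mem _ _ (Submodule.subset_span rfl)
  have hbase : ∀ a : K⟮x⟯, KaehlerDifferential.D K F (a : F) ∈ S := fun a => by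
    obtain ⟨r, s, hrs⟩ := mem_adjoin_simple_iff (F := K) (a : F) |>.mp a.2
    rw [hrs, Derivation.leibniz_div]
    exact Submodule.smul_mem _ _
      (sub_mem (Submodule.smul_mem _ _ (haeval r)) (Submodule.smul_mem _ _ (haeval s)))
  have : Algebra.FormallyUnramified K⟮x⟯ F := Algebra.FormallyUnramified.of_isSeparable _ _
  rw [eq_top_iff]; rintro w -
  obtain ⟨t, rfl⟩ := (KaehlerDifferential.exact_mapBaseChange_map K K⟮x⟯ F w).mp
    (Subsingleton.elim _ _)
  induction t with
  | zero => simp
  | add a b ha hb => rw [map_add]; exact add_mem ha hb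
  | tmul f d =>
    rw [KaehlerDifferential.mapBaseChange_tmul]
    refine Submodule.smul_mem _ _ ?_
    have hd : d ∈ Submodule.span K⟮x⟯ (Set.range (KaehlerDifferential.D K K⟮x⟯)) := by
      simp [KaehlerDifferential.span_range_derivation]
    induction hd using Submodule.span_induction with
    | mem d hd => obtain ⟨a, rfl⟩ := hd; rw [KaehlerDifferential.map_D]; exact hbase a
    | zero => simp
    | add a b _ _ ha hb => rw [map_add]; exact add_mem ha hb
    | smul c a _ ha => rw [map_smul]; exact Submodule.smul_of_tower_mem _ _ ha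

theorem D_ne_zero_of_isSeparable {x : F} (hx : Transcendental K x)
    [Algebra.IsSeparable K⟮x⟯ F] : KaehlerDifferential.D K F x ≠ 0 := by
  intro h0
  have hbot : (⊤ : Submodule F Ω[F⁄K]) = ⊥ := by
    rw [← span_D_eq_top_of_isSeparable (x := x), h0, Submodule.span_zero_singleton]
  have : Algebra.FormallyUnramified K F :=
    ⟨⟨fun a b => by
      have h : ∀ c : Ω[F⁄K], c = 0 := fun c =>
        (Submodule.mem_bot F).mp (hbot ▸ (Submodule.mem_top : c ∈ _))
      rw [h a, h b]⟩⟩
  have := essFiniteType (K := K) (F := F)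
  have : Module.Finite K F := Algebra.FormallyUnramified.finite_of_free K F
  exact hx (Algebra.IsAlgebraic.isAlgebraic x)

variable [CharZero K]

theorem isSeparable_adjoin {x : F} (hx : Transcendental K x) : Algebra.IsSeparable K⟮x⟯ F := by
  have := finiteDimensional_adjoin hx
  have : CharZero K⟮x⟯ := charZero_of_injective_algebraMap (algebraMap K K⟮x⟯).injective
  infer_instance

theorem span_D_eq_top {x : F} (hx : Transcendental K x) :
    Submodule.span F {KaehlerDifferential.D K F x} = (⊤ : Submodule F Ω[F⁄K]) :=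
  haveI := isSeparable_adjoin hx
  span_D_eq_top_of_isSeparable

theorem D_ne_zero {x : F} (hx : Transcendental K x) : KaehlerDifferential.D K F x ≠ 0 :=
  haveI := isSeparable_adjoin hx
  D_ne_zero_of_isSeparable hx

theorem kaehler_free_rank_one : Module.Free F Ω[F⁄K] ∧ Module.finrank F Ω[F⁄K] = 1 := by
  obtain ⟨x, hx, -⟩ := IsFunctionField.exists_finite (K := K) (F := F)
  refine ⟨inferInstance, finrank_eq_one _ (D_ne_zero hx) fun w => ?_⟩
  have hw : w ∈ Submodule.span F {KaehlerDifferential.D K F x} :=
    span_D_eq_top hx ▸ Submodule.mem_top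
  exact Submodule.mem_span_singleton.mp hw

instance isCurveOver : IsCurveOver K F :=
  ⟨finite_residueField, kaehler_free_rank_one⟩

instance dCoordGenerates (v : Place K F) : v.DCoordGenerates := by
  constructor
  unfold Place.dCoord
  refine span_D_eq_top (transcendental_of_ord_pos v ?_)
  exact lt_of_lt_of_eq one_pos (v.ord_coe_irreducible
    (IsDiscreteValuationRing.exists_irreducible v.toValuationSubring).choose_spec).symm

/-- The derivative `dy/dx`. -/
def ddx (x y : F) : F :=
  if h : ∃ c : F, c • KaehlerDifferential.D K F x = KaehlerDifferential.D K F y then h.choose else 0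

variable {x : F} (hx : Transcendental K x)
include hx

theorem ddx_spec (y : F) :
    ddx (K := K) x y • KaehlerDifferential.D K F x = KaehlerDifferential.D K F y := by
  have hy : KaehlerDifferential.D K F y ∈ Submodule.span F {KaehlerDifferential.D K F x} :=
    span_D_eq_top hx ▸ Submodule.mem_top
  have hex : ∃ c : F, c • KaehlerDifferential.D K F x = KaehlerDifferential.D K F y :=
    Submodule.mem_span_singleton.mp hy
  rw [ddx, dif_pos hex]
  exact hex.choose_spec

theorem ddx_eq {y c : F}
    (h : c • KaehlerDifferential.D K F x = KaehlerDifferential.D K F y) :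
    ddx (K := K) x y = c :=
  smul_left_injective F (D_ne_zero hx) ((ddx_spec hx y).trans h.symm)

theorem ddx_add (y z : F) : ddx (K := K) x (y + z) = ddx (K := K) x y + ddx (K := K) x z :=
  ddx_eq hx (by rw [add_smul, ddx_spec hx, ddx_spec hx, map_add])

theorem ddx_mul (y z : F) :
    ddx (K := K) x (y * z) = y * ddx (K := K) x z + z * ddx (K := K) x y :=
  ddx_eq hx (by rw [add_smul, mul_smul, mul_smul, ddx_spec hx, ddx_spec hx, Derivation.leibniz])

theorem ddx_algebraMap (a : K) : ddx (K := K) x (algebraMap K F a) = 0 :=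
  ddx_eq hx (by rw [zero_smul, Derivation.map_algebraMap])

theorem ddx_self : ddx (K := K) x x = 1 := ddx_eq hx (one_smul _ _)

theorem ddx_sub (y z : F) : ddx (K := K) x (y - z) = ddx (K := K) x y - ddx (K := K) x z :=
  ddx_eq hx (by rw [sub_smul, ddx_spec hx, ddx_spec hx, map_sub])

theorem ddx_div (y z : F) : ddx (K := K) x (y / z) =
    (z⁻¹ ^ 2) * (z * ddx (K := K) x y - y * ddx (K := K) x z) :=
  ddx_eq hx (by
    rw [Derivation.leibniz_div, mul_smul, sub_smul, mul_smul, mul_smul, ddx_spec hx, ddx_spec hx])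

theorem ddx_zpow (y : F) (n : ℤ) :
    ddx (K := K) x (y ^ n) = n * y ^ (n - 1) * ddx (K := K) x y :=
  ddx_eq hx (by
    rw [mul_smul, ddx_spec hx, Derivation.leibniz_zpow, mul_smul, Int.cast_smul_eq_zsmul])

theorem ddx_chain {t : F} (ht : Transcendental K t) (y : F) :
    ddx (K := K) t y = ddx (K := K) x y * ddx (K := K) t x :=
  ddx_eq ht (by rw [mul_smul, ddx_spec ht, ddx_spec hx])

theorem ddx_sum {ι : Type*} (s : Finset ι) (f : ι → F) :
    ddx (K := K) x (∑ i ∈ s, f i) = ∑ i ∈ s, ddx (K := K) x (f i) :=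
  ddx_eq hx (by rw [Finset.sum_smul, map_sum]; exact Finset.sum_congr rfl fun i _ => ddx_spec hx _)

omit hx

theorem algebraMap_intermediate_ord_zero (v : Place K F) {t : F} (ht : v.ord t = 1)
    (c : K⟮t⟯) (hc : (c : F) ∈ ordGe v 0) :
    ddx (K := K) t (c : F) ∈ ordGe v 0 := by
  have htt : Transcendental K t := transcendental_of_ord_pos v (by omega)
  have ht0 : t ≠ 0 := fun h => by simp [h] at ht
  have htmem : t ∈ v.toValuationSubring := (mem_iff v).mpr (Or.inr (by omega))
  obtain ⟨r, s, hrs⟩ := mem_adjoin_simple_iff (F := K) (c : F) |>.mp c.2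
  -- arrange that `s` has nonzero constant term
  by_cases hr : r = 0
  · have : (c : F) = algebraMap K F 0 := by simp [hrs, hr]
    rw [this, ddx_algebraMap htt]
    exact zero_mem _
  by_cases hs : s = 0
  · have : (c : F) = algebraMap K F 0 := by simp [hrs, hs]
    rw [this, ddx_algebraMap htt]
    exact zero_mem _
  obtain ⟨r', hr', hr0⟩ := exists_eq_pow_rootMultiplicity_mul_and_not_dvd r hr (0 : K)
  obtain ⟨s', hs', hs0⟩ := exists_eq_pow_rootMultiplicity_mul_and_not_dvd s hs (0 : K)
  rw [C_0, sub_zero] at hr' hr0 hs' hs0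
  rw [X_dvd_iff] at hr0 hs0
  set a := r.rootMultiplicity 0
  set b := s.rootMultiplicity 0
  have hunit : ∀ q : K[X], q.coeff 0 ≠ 0 → aeval t q ≠ 0 ∧ v.ord (aeval t q) = 0 := fun q hq => by
    have h1 := aeval_sub_coeff_zero_mem v (by omega : 0 < v.ord t) q
    rw [ht] at h1
    obtain ⟨h2, h3⟩ := ord_add_eq_left v
      (show algebraMap K F (q.coeff 0) ≠ 0 by simpa using hq)
      (g := aeval t q - algebraMap K F (q.coeff 0))
      (((mem_ordGe v).mp h1).imp_right fun h => by rw [ord_algebraMap]; omega)
    rw [add_sub_cancel] at h2 h3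
    exact ⟨h2, h3.trans (ord_algebraMap v _)⟩
  obtain ⟨hru, hru'⟩ := hunit r' hr0
  obtain ⟨hsu, hsu'⟩ := hunit s' hs0
  have hrs' : (c : F) = t ^ a * aeval t r' / (t ^ b * aeval t s') := by
    rw [hrs, hr', hs', map_mul, map_mul, map_pow, map_pow, aeval_X]
  have hc0 : (c : F) ≠ 0 := by
    rw [hrs']
    exact div_ne_zero (mul_ne_zero (pow_ne_zero _ ht0) hru) (mul_ne_zero (pow_ne_zero _ ht0) hsu)
  have hord := le_ord_of_mem_ordGe v hc0 hc
  rw [hrs', ord_div v (mul_ne_zero (pow_ne_zero _ ht0) hru) (mul_ne_zero (pow_ne_zero _ ht0) hsu),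
    v.ord_mul (pow_ne_zero _ ht0) hru, v.ord_mul (pow_ne_zero _ ht0) hsu, ord_pow, ord_pow, ht,
    hru', hsu'] at hord
  have hba : b ≤ a := by omega
  have hc2 : (c : F) = aeval t (X ^ (a - b) * r') / aeval t s' := by
    rw [hrs', map_mul, map_pow, aeval_X]
    rw [show t ^ a = t ^ b * t ^ (a - b) by rw [← pow_add, Nat.add_sub_cancel' hba]]
    field_simp
  have hd : ∀ q : K[X], ddx (K := K) t (aeval t q) = aeval t (derivative q) := fun q => by
    induction q using Polynomial.induction_on' with
    | add p q hp hq => rw [map_add, ddx_add htt, hp, hq, map_add, map_add]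
    | monomial n a =>
      rw [derivative_monomial, aeval_monomial, aeval_monomial, ddx_mul htt, ddx_algebraMap htt,
        ← zpow_natCast t n, ddx_zpow htt, ddx_self htt]
      rcases n with _ | n
      · simp
      · push_cast
        simp only [add_sub_cancel_right,
          zpow_natCast]
        ring
  rw [hc2, ddx_div htt, hd, hd, mem_ordGe_zero]
  refine mul_mem (pow_mem ((mem_iff v).mpr (Or.inr ?_)) 2) ?_
  · rw [v.ord_inv, hsu', neg_zero]
  · exact sub_mem (mul_mem (aeval_mem_valuationSubring v htmem _)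
      (aeval_mem_valuationSubring v htmem _)) (mul_mem (aeval_mem_valuationSubring v htmem _)
      (aeval_mem_valuationSubring v htmem _))

/-- The derivative with respect to a uniformiser has bounded poles on the valuation ring. -/
theorem exists_bound_ddx (v : Place K F) {t : F} (ht : v.ord t = 1) :
    ∃ M : ℕ, ∀ z ∈ v.toValuationSubring, ddx (K := K) t z ∈ ordGe v (-(M : ℤ)) := by
  have htt : Transcendental K t := transcendental_of_ord_pos v (by omega)
  have := finiteDimensional_adjoin htt
  have : IsFunctionField K K⟮t⟯ := by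
    have hgen : Transcendental K (AdjoinSimple.gen K t) := fun h =>
      htt (IsAlgebraic.algebraMap (A := F) h)
    have htop : (K⟮AdjoinSimple.gen K t⟯ : IntermediateField K K⟮t⟯) = ⊤ := by
      apply IntermediateField.lift_injective K⟮t⟯
      rw [IntermediateField.lift_adjoin_simple, IntermediateField.lift_top]
      rfl
    have : FiniteDimensional (K⟮AdjoinSimple.gen K t⟯ : IntermediateField K K⟮t⟯) K⟮t⟯ := by
      rw [htop]
      exact Module.Finite.of_surjective
        (Algebra.linearMap (⊤ : IntermediateField K K⟮t⟯) K⟮t⟯) fun y => ⟨⟨y, trivial⟩, rfl⟩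
    exact isFunctionField_of_finite hgen
  set v₀ := v.restrict K⟮t⟯
  obtain ⟨d⟩ := exists_fiberData (K := K) (F := K⟮t⟯) (F' := F) v₀
  have hv : v ∈ v₀.fiber F := Place.mem_fiber.mpr rfl
  obtain ⟨M, hM⟩ : ∃ M : ℕ, ∀ a, ddx (K := K) t (d.u a) ∈ ordGe v (-(M : ℤ)) := by
    refine ⟨Finset.univ.sup fun a => (v.ord (ddx (K := K) t (d.u a))).natAbs, fun a => ?_⟩
    refine mem_ordGe_of_le v ?_
    have := Finset.le_sup (f := fun a => (v.ord (ddx (K := K) t (d.u a))).natAbs)
      (Finset.mem_univ a)
    omega
  have hB : ∀ b : F, (∀ w ∈ v₀.fiber F, b ∈ ordGe w 0) →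
      ddx (K := K) t b ∈ ordGe v (-(M : ℤ)) := by
    intro b hb
    have hsum := d.basis.sum_repr b
    simp only [d.coe_basis, Algebra.smul_def, IntermediateField.algebraMap_apply] at hsum
    rw [← hsum, ddx_sum htt]
    refine sum_mem fun a _ => ?_
    rw [ddx_mul htt]
    have hc := algebraMap_mem_ordGe v (d.repr_mem hb a : _ ∈ ordGe (v.restrict K⟮t⟯) 0)
    rw [mul_zero, IntermediateField.algebraMap_apply] at hc
    refine add_mem (by simpa using mul_mem_ordGe v hc (hM a))
      (ordGe_anti v (by omega) (mul_mem_ordGe v (d.u_mem a v hv)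
        (algebraMap_intermediate_ord_zero v ht _ hc)))
  refine ⟨M, fun z hz => ?_⟩
  obtain ⟨s, hs⟩ := exists_approx (v₀.fiber F) (fun w => if w = v then 1 else 0)
    (fun w => if w = v then 1 else ((w.ord z).natAbs : ℤ))
  have hsv : s - 1 ∈ ordGe v 1 := by simpa using hs v hv
  obtain ⟨hs0, hs1⟩ := ord_add_eq_left v (one_ne_zero (α := F)) (g := s - 1)
    (((mem_ordGe v).mp hsv).imp_right fun h => by rw [Place.ord_one]; omega)
  rw [add_sub_cancel] at hs0 hs1
  rw [Place.ord_one] at hs1
  have hsB : ∀ w ∈ v₀.fiber F, s ∈ ordGe w 0 := fun w hw => by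
    by_cases h : w = v
    · subst h; exact mem_ordGe_of_le w hs1.ge
    · have := hs w hw
      simp only [if_neg h, sub_zero] at this
      exact ordGe_anti w (Int.natCast_nonneg _) this
  have hszB : ∀ w ∈ v₀.fiber F, s * z ∈ ordGe w 0 := fun w hw => by
    by_cases h : w = v
    · subst h
      simpa using mul_mem_ordGe w (mem_ordGe_of_le w hs1.ge) ((mem_ordGe_zero w).mpr hz)
    · have := hs w hw
      simp only [if_neg h, sub_zero] at this
      exact ordGe_anti w (by omega) (mul_mem_ordGe w this (mem_ordGe_of_le w (le_refl (w.ord z))))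
  have h1 := hB _ hszB
  have h2 := hB _ hsB
  rw [ddx_mul htt] at h1
  have h3 : s * ddx (K := K) t z ∈ ordGe v (-(M : ℤ)) := by
    have := sub_mem h1
      (by simpa using mul_mem_ordGe v ((mem_ordGe_zero v).mpr hz) h2 :
        z * ddx (K := K) t s ∈ ordGe v (-(M : ℤ)))
    rwa [add_sub_cancel_right] at this
  have h4 := mul_mem_ordGe v (mem_ordGe_of_le v (show (0 : ℤ) ≤ v.ord s⁻¹ by
    rw [v.ord_inv, hs1, neg_zero])) h3
  rwa [← mul_assoc, inv_mul_cancel₀ hs0, one_mul, zero_add] at h4

section AlgClosed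

variable [IsAlgClosed K]

omit [CharZero K] in
/-- Over an algebraically closed field an element without pole at `v` is congruent to a constant. -/
theorem exists_sub_mem_ordGe_one (v : Place K F) {z : F} (hz : z ∈ v.toValuationSubring) :
    ∃ c : K, z - algebraMap K F c ∈ ordGe v 1 := by
  have := finite_residueField v
  have hbij : Function.Bijective (algebraMap K v.ResidueField) :=
    IsAlgClosed.algebraMap_bijective_of_isIntegral
  obtain ⟨c, hc⟩ := hbij.2 (IsLocalRing.residue _ ⟨z, hz⟩)
  refine ⟨c, ?_⟩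
  have h : IsLocalRing.residue v.toValuationSubring
      (⟨z, hz⟩ - algebraMap K v.toValuationSubring c) = 0 := by
    rw [map_sub, ← hc]
    exact sub_self _
  exact ((residue_eq_zero_iff v).mp h :)

/-- `d/dt` preserves the valuation ring at a place with uniformiser `t`. -/
theorem ddx_mem (v : Place K F) {t : F} (ht : v.ord t = 1) {z : F}
    (hz : z ∈ v.toValuationSubring) : ddx (K := K) t z ∈ ordGe v 0 := by
  have htt : Transcendental K t := transcendental_of_ord_pos v (by omega)
  have ht0 : t ≠ 0 := fun h => by simp [h] at ht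
  obtain ⟨M, hM⟩ := exists_bound_ddx v ht
  induction M generalizing z with
  | zero => simpa using hM z hz
  | succ k ih =>
    refine ih hz fun y hy => ?_
    obtain ⟨c, hc⟩ := exists_sub_mem_ordGe_one v hy
    have hy' : (y - algebraMap K F c) / t ∈ v.toValuationSubring := by
      rw [← mem_ordGe_zero, div_eq_mul_inv]
      have := mul_mem_ordGe v hc (mem_ordGe_of_le v (le_refl (v.ord t⁻¹)))
      rwa [v.ord_inv, ht, add_neg_cancel] at this
    have h1 := hM _ hy'
    have h2 : ddx (K := K) t y = t * ddx (K := K) t ((y - algebraMap K F c) / t)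
        + (y - algebraMap K F c) / t := by
      conv_lhs => rw [show y = t * ((y - algebraMap K F c) / t) + algebraMap K F c by
        field_simp; ring]
      rw [ddx_add htt, ddx_algebraMap htt, add_zero, ddx_mul htt, ddx_self htt, mul_one]
    rw [h2]
    refine add_mem (ordGe_anti v ?_ (mul_mem_ordGe v (mem_ordGe_of_le v ht.ge) h1))
      (ordGe_anti v (by omega) ((mem_ordGe_zero v).mpr hy'))
    push_cast; omega

/-- `ord (dy/dt) = ord y - 1` when `ord y ≠ 0`. -/
theorem ord_ddx_of_ord_ne_zero (v : Place K F) {t : F} (ht : v.ord t = 1) {y : F}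
    (hy : v.ord y ≠ 0) :
    ddx (K := K) t y ≠ 0 ∧ v.ord (ddx (K := K) t y) = v.ord y - 1 := by
  have htt : Transcendental K t := transcendental_of_ord_pos v (by omega)
  have ht0 : t ≠ 0 := fun h => by simp [h] at ht
  have hy0 : y ≠ 0 := fun h => by simp [h] at hy
  set e := v.ord y
  have hu0 : y / t ^ e ≠ 0 := div_ne_zero hy0 (zpow_ne_zero _ ht0)
  have hu : v.ord (y / t ^ e) = 0 := by
    rw [ord_div v hy0 (zpow_ne_zero _ ht0), v.ord_zpow, ht]; ring
  have hdu := ddx_mem v ht ((mem_iff v).mpr (Or.inr hu.ge))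
  have heq : ddx (K := K) t y = (e : F) * t ^ (e - 1) * (y / t ^ e)
      + t ^ e * ddx (K := K) t (y / t ^ e) := by
    conv_lhs => rw [show y = t ^ e * (y / t ^ e) by field_simp]
    rw [ddx_mul htt, ddx_zpow htt, ddx_self htt]; ring
  have : CharZero F := charZero_of_injective_algebraMap (algebraMap K F).injective
  have he : (e : F) ≠ 0 := Int.cast_ne_zero.mpr hy
  have hmain : (e : F) * t ^ (e - 1) * (y / t ^ e) ≠ 0 :=
    mul_ne_zero (mul_ne_zero he (zpow_ne_zero _ ht0)) hu0
  have hordmain : v.ord ((e : F) * t ^ (e - 1) * (y / t ^ e)) = e - 1 := by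
    rw [v.ord_mul (mul_ne_zero he (zpow_ne_zero _ ht0)) hu0, hu,
      v.ord_mul he (zpow_ne_zero _ ht0), v.ord_zpow, ht,
      show (e : F) = algebraMap K F (e : K) by simp, ord_algebraMap]
    ring
  rw [heq]
  refine (ord_add_eq_left v hmain ?_).imp_right fun h => h.trans hordmain
  rw [hordmain]
  rcases eq_or_ne (ddx (K := K) t (y / t ^ e)) 0 with h | h
  · exact Or.inl (by rw [h, mul_zero])
  · right
    rw [v.ord_mul (zpow_ne_zero _ ht0) h, v.ord_zpow, ht]
    have := le_ord_of_mem_ordGe v h hdu
    omega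

end AlgClosed

end Fermat.Agent.FF
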