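import Fermat.Agent.FF.HeckeInputs
import Fermat.Agent.ModFun.Field

/-!
# The Hecke correspondences on `X₀(N)` in characteristic zero

The inputs of the Hecke correspondence and the degree of the first degeneracy map.
-/

set_option autoImplicit false

noncomputable section

open AlgebraicCurve ModularCurve

namespace Fermat.Agent.FF

theorem heckeInputsAlong (L : Type*) [Field L] [Algebra ℚ L] (N ℓ : ℕ) [NeZero N] [NeZero ℓ] :
    HeckeInputsAlong L N ℓ :=
  haveI : CharZero L := charZero_of_injective_algebraMap (algebraMap ℚ L).injective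
  haveI : NeZero (N * ℓ) := ⟨Nat.mul_ne_zero (NeZero.ne N) (NeZero.ne ℓ)⟩
  haveI := ModFun.isFunctionField_baseChange N L
  haveI := ModFun.isFunctionField_baseChange (N * ℓ) L
  heckeInputsAlong_of_isFunctionField L N ℓ

/-- The degree of the first degeneracy map. -/
theorem finrankAlong_alpha (N ℓ : ℕ) [NeZero N] [NeZero ℓ] :
    dedekindPsi N * finrankAlong (AlgebraicClosure ℚ) (heckeAlphaBar (AlgebraicClosure ℚ) N ℓ) =
      dedekindPsi (N * ℓ) := by
  let := algebraAlong (heckeAlphaBar (AlgebraicClosure ℚ) N ℓ)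
  have := isScalarTower_along (heckeAlphaBar (AlgebraicClosure ℚ) N ℓ)
  have : Module.Finite (modularFunctionFieldBar N) (modularFunctionFieldBar (N * ℓ)) :=
    finiteAlong (heckeAlphaBar (AlgebraicClosure ℚ) N ℓ)
  have h := (finite_and_finrank_adjoin_algebraMap (F' := modularFunctionFieldBar (N * ℓ))
    (ModFun.transcendental_jBase N (AlgebraicClosure ℚ))).2
  have hj : algebraMap (modularFunctionFieldBar N) (modularFunctionFieldBar (N * ℓ))
      (ModFun.jBase N (AlgebraicClosure ℚ)) = ModFun.jBase (N * ℓ) (AlgebraicClosure ℚ) :=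
    Subtype.ext rfl
  rw [hj, (ModFun.finrank_baseChange (N * ℓ) (AlgebraicClosure ℚ)).2,
    (ModFun.finrank_baseChange N (AlgebraicClosure ℚ)).2] at h
  exact h.symm

end Fermat.Agent.FF
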