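import Fermat.Agent.FF.RiemannRoch
import Fermat.Prelude.Def_AlgebraicCurve_BaseChangeGalois

/-!
# Fixed representatives of fixed classes

With a fixed place `O`, every class of degree zero is `E - r O` for exactly one effective `E` of
least degree `r`, so a fixed class has a fixed representative, and a fixed principal divisor is
the divisor of a fixed function.
-/

set_option autoImplicit false

noncomputable section

open AlgebraicCurve

namespace Fermat.Agent.FF

variable {K F : Type*} [Field K] [IsAlgClosed K] [Field F] [Algebra K F] [IsFunctionField K F]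

/-- Every class has a representative `E - r O`, with `r` bounded, fixed by whatever fixes both
`O` and the class. -/
theorem exists_fixed_effective (O : Place K F) :
    ∃ R : ℕ, ∀ D : Divisor K F, Divisor.degree D = 0 →
      ∃ r ≤ R, ∃ E : Divisor K F, 0 ≤ E ∧ Divisor.degree E = r ∧
        E - Finsupp.single O (r : ℤ) - D ∈ Divisor.principal (K := K) (F := F) ∧
        ∀ g : SemilinearAut K F, g • O = O →
          g • D - D ∈ Divisor.principal (K := K) (F := F) → g • E = E := by
  classical
  obtain ⟨c, hc⟩ := exists_ell_eq (K := K) (F := F)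
  refine ⟨c.toNat + genusFF K F, fun D hD => ?_⟩
  have hdegS : ∀ n : ℤ, Divisor.degree (D + Finsupp.single O n) = n := fun n => by
    rw [map_add, hD, Divisor.degree_single, deg_eq_one]; ring
  have hex : ∃ r : ℕ, 0 < ell K (D + Finsupp.single O (r : ℤ)) := by
    refine ⟨c.toNat + genusFF K F, ?_⟩
    have := Int.self_le_toNat c
    rw [hc _ (by rw [hdegS]; push_cast; omega), hdegS]
    push_cast
    have := Int.natCast_nonneg c.toNat
    omega
  set r := Nat.find hex with hr
  have hrpos : 0 < ell K (D + Finsupp.single O (r : ℤ)) := Nat.find_spec hex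
  have hrle : r ≤ c.toNat + genusFF K F := Nat.find_min' hex (by
    have := Int.self_le_toNat c
    rw [hc _ (by rw [hdegS]; push_cast; omega), hdegS]
    push_cast
    have := Int.natCast_nonneg c.toNat
    omega)
  -- only one dimension
  have hone : ell K (D + Finsupp.single O (r : ℤ)) ≤ 1 := by
    have hprev : ell K (D + Finsupp.single O ((r : ℤ) - 1)) ≤ 0 := by
      rcases Nat.eq_zero_or_pos r with h0 | h0
      · exact (ell_eq_zero_of_degree_neg (by rw [hdegS, h0]; norm_num)).le
      · have := Nat.find_min hex (show r - 1 < r by omega)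
        push Not at this
        rwa [Nat.cast_sub h0, Nat.cast_one] at this
    have h := ell_le_of_le (K := K) (D := D + Finsupp.single O ((r : ℤ) - 1))
      (E := D + Finsupp.single O (r : ℤ))
      (add_le_add le_rfl (Finsupp.single_mono (by omega)))
    rw [hdegS, hdegS] at h
    omega
  obtain ⟨h, hh0, hh⟩ := exists_ne_zero_of_ell_pos hrpos
  set E := D + Finsupp.single O (r : ℤ) + div K h with hE
  have hEp : E - Finsupp.single O (r : ℤ) - D ∈ Divisor.principal (K := K) (F := F) :=
    ⟨h, hh0, fun v => by rw [hE, ← div_apply]; simp only [Finsupp.sub_apply, Finsupp.add_apply]; ring⟩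
  refine ⟨r, hrle, E, hh, ?_, hEp, fun g hgO hgD => ?_⟩
  · rw [hE, map_add, hdegS, degree_div, add_zero]
  -- `g • E` is effective and linearly equivalent to `D + r O`
  have hgEp : g • E - Finsupp.single O (r : ℤ) - D ∈ Divisor.principal (K := K) (F := F) := by
    have h1 := SemilinearAut.smul_mem_principal g hEp
    have e : g • E - Finsupp.single O (r : ℤ) - D =
        g • (E - Finsupp.single O (r : ℤ) - D) + (g • D - D) := by
      rw [smul_sub, smul_sub, SemilinearAut.smul_single, hgO]; abel
    rw [e]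
    exact add_mem h1 hgD
  obtain ⟨h', hh'0, hh'⟩ := hgEp
  have hgE : g • E = D + Finsupp.single O (r : ℤ) + div K h' := Finsupp.ext fun v => by
    have := hh' v
    simp only [Finsupp.sub_apply] at this
    rw [Finsupp.add_apply, Finsupp.add_apply, div_apply, ← this]
    ring
  have hmem : ∀ z : F, z ≠ 0 → 0 ≤ D + Finsupp.single O (r : ℤ) + div K z →
      z ∈ riemannRochSpace (D + Finsupp.single O (r : ℤ)) := fun z _ hz => by
    rw [mem_riemannRochSpace']
    intro v
    refine mem_ordGe_of_le v ?_
    have := Finsupp.le_def.mp hz v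
    rw [Finsupp.coe_zero, Pi.zero_apply, Finsupp.add_apply, div_apply] at this
    linarith
  have hgEnn : 0 ≤ g • E := Finsupp.le_def.mpr fun v => by
    rw [SemilinearAut.divisor_smul_apply, Finsupp.coe_zero, Pi.zero_apply]
    exact Finsupp.le_def.mp hh (g⁻¹ • v)
  have hm : (⟨h, hmem h hh0 hh⟩ : riemannRochSpace (D + Finsupp.single O (r : ℤ))) ≠ 0 :=
    fun e => hh0 (congrArg Subtype.val e)
  have hfin : FiniteDimensional K (riemannRochSpace (D + Finsupp.single O (r : ℤ))) :=
    inferInstance
  have hdim : Module.finrank K (riemannRochSpace (D + Finsupp.single O (r : ℤ))) = 1 := by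
    simp only [ell] at hone hrpos
    omega
  obtain ⟨a, ha⟩ := exists_smul_eq_of_finrank_eq_one hdim hm
    ⟨h', hmem h' hh'0 (hgE ▸ hgEnn)⟩
  have ha' : a • h = h' := congrArg Subtype.val ha
  rw [hgE, hE]
  congr 1
  refine Finsupp.ext fun v => ?_
  rw [div_apply, div_apply, ← ha', ord_smul' v (fun h0 => hh'0 (by
    rw [← ha', h0, zero_smul]))]

/-- A fixed class contains a fixed divisor, provided some place is fixed. -/
theorem exists_fixed_divisor {S : Set (SemilinearAut K F)} {O : Place K F}
    (hO : ∀ g ∈ S, g • O = O) {x : Pic0 K F} (hx : ∀ g ∈ S, g • x = x) :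
    ∃ D : Divisor.degZero (K := K) (F := F),
      Pic0.mk D = x ∧ ∀ g ∈ S, g • (D : Divisor K F) = (D : Divisor K F) := by
  obtain ⟨D, rfl⟩ := Pic0.mk_surjective x
  obtain ⟨R, hR⟩ := exists_fixed_effective O
  obtain ⟨r, -, E, -, hdeg, hE, hfix⟩ := hR D (Divisor.mem_degZero.mp D.2)
  have hd : Divisor.degree (E - Finsupp.single O (r : ℤ)) = 0 := by
    rw [map_sub, hdeg, Divisor.degree_single, deg_eq_one]; simp
  refine ⟨⟨_, Divisor.mem_degZero.mpr hd⟩, (QuotientAddGroup.eq_iff_sub_mem).mpr ?_,
    fun g hg => ?_⟩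
  · simpa [AddSubgroup.mem_addSubgroupOf] using hE
  · show g • (E - Finsupp.single O (r : ℤ)) = _
    have h := hx g hg
    rw [SemilinearAut.pic0_smul_mk] at h
    replace h := QuotientAddGroup.eq_iff_sub_mem.mp h
    rw [smul_sub, SemilinearAut.smul_single, hO g hg,
      hfix g (hO g hg) (by simpa [AddSubgroup.mem_addSubgroupOf] using h)]

/-- A fixed principal divisor is the divisor of a fixed function, normalised by `lead`. -/
theorem exists_fixed_fun (S : Set (SemilinearAut K F)) (lead : F → K)
    (hlead_mul : ∀ (c : K) (y : F), lead (algebraMap K F c * y) = c * lead y)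
    (hlead0 : ∀ y : F, y ≠ 0 → lead y ≠ 0)
    (hlead_smul : ∀ g ∈ S, ∀ y : F, lead (g • y) = SemilinearAut.baseAut g (lead y))
    {E : Divisor K F} (hE : E.IsPrincipal) (hfix : ∀ g ∈ S, g • E = E) :
    ∃ f : F, f ≠ 0 ∧ lead f = 1 ∧ (∀ g ∈ S, g • f = f) ∧ ∀ P, E P = P.ord f := by
  obtain ⟨f₁, hf₁, hord⟩ := hE
  set f : F := algebraMap K F (lead f₁)⁻¹ * f₁ with hf
  have hc : algebraMap K F (lead f₁)⁻¹ ≠ 0 :=
    (_root_.map_ne_zero _).mpr (inv_ne_zero (hlead0 _ hf₁))
  have hf0 : f ≠ 0 := mul_ne_zero hc hf₁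
  have hordf : ∀ v : Place K F, E v = v.ord f := fun v => by
    rw [hf, v.ord_mul hc hf₁, ord_algebraMap, zero_add, hord]
  have hl : lead f = 1 := by rw [hf, hlead_mul, inv_mul_cancel₀ (hlead0 _ hf₁)]
  refine ⟨f, hf0, hl, fun g hg => ?_, hordf⟩
  have hgf0 : g • f ≠ 0 := (_root_.map_ne_zero (SemilinearAut.toRingAut g)).mpr hf0
  obtain ⟨a, ha⟩ : ∃ a : K, g • f / f = algebraMap K F a := by
    refine eq_algebraMap_of_ord_nonneg fun v => ?_
    have h1 := SemilinearAut.ord_smul g (g⁻¹ • v) f
    rw [smul_inv_smul] at h1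
    have h2 := DFunLike.congr_fun (hfix g hg) v
    rw [SemilinearAut.divisor_smul_apply] at h2
    rw [ord_div v hgf0 hf0, h1, ← hordf, ← hordf, h2, sub_self]
  have h3 : g • f = algebraMap K F a * f := by rw [← ha, div_mul_cancel₀ _ hf0]
  have h4 := congrArg lead h3
  rw [hlead_smul g hg, hl, map_one, hlead_mul a f, hl, mul_one] at h4
  rw [h3, ← h4, map_one, one_mul]

end Fermat.Agent.FF
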