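import Fermat.Agent.FF.LocalBasis
import Fermat.Agent.FF.Differential

/-!
# The genus `genusFF` equals the canonical genus
-/

set_option autoImplicit false

noncomputable section

open AlgebraicCurve Polynomial IntermediateField KaehlerDifferential
open scoped Classical

namespace Fermat.Agent.FF

set_option linter.unusedSectionVars false

variable {K E F : Type*} [Field K] [Field E] [Field F] [Algebra K E] [Algebra K F] [Algebra E F]
  [IsScalarTower K E F] [FiniteDimensional E F] [IsFunctionField K E] [IsFunctionField K F]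
  [IsAlgClosed K] [CharZero K]

theorem adjoin_sub_algebraMap (x : E) (c : K) : K⟮x - algebraMap K E c⟯ = K⟮x⟯ := by
  refine le_antisymm
    (adjoin_simple_le_iff.mpr (sub_mem (mem_adjoin_simple_self K x) (K⟮x⟯.algebraMap_mem c)))
    (adjoin_simple_le_iff.mpr ?_)
  have := add_mem (mem_adjoin_simple_self K (x - algebraMap K E c))
    (K⟮x - algebraMap K E c⟯.algebraMap_mem c)
  rwa [sub_add_cancel] at this

/-- An effective divisor of degree one is a single place. -/
theorem eq_single_of_degree_one {D : Divisor K E} (h : 0 ≤ D) (h1 : Divisor.degree D = 1) :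
    ∃ v, D = Finsupp.single v 1 := by
  have hsum : ∑ w ∈ D.support, D w = 1 := by
    rw [degree_eq_sum D D.support subset_rfl] at h1
    simpa [deg_eq_one] using h1
  have hpos : ∀ w ∈ D.support, 1 ≤ D w := fun w hw => by
    have := Finsupp.le_def.mp h w
    have := Finsupp.mem_support_iff.mp hw
    simp at *
    omega
  have hcard : (D.support.card : ℤ) ≤ 1 := by
    refine le_of_le_of_eq ?_ hsum
    rw [Finset.card_eq_sum_ones, Nat.cast_sum]
    exact Finset.sum_le_sum fun w hw => by simpa using hpos w hw
  have hne : D.support.card ≠ 0 := fun h0 => by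
    rw [Finset.card_eq_zero] at h0
    rw [h0, Finset.sum_empty] at hsum
    omega
  obtain ⟨v, hv⟩ := Finset.card_eq_one.mp (show D.support.card = 1 by omega)
  rw [hv, Finset.sum_singleton] at hsum
  refine ⟨v, Finsupp.ext fun w => ?_⟩
  rcases eq_or_ne w v with rfl | hw
  · simp [hsum]
  · rw [Finsupp.single_eq_of_ne hw, ← Finsupp.notMem_support_iff, hv]
    simpa using hw

variable {x : E} (hx : Transcendental K x) (hx1 : Module.finrank K⟮x⟯ E = 1)

include hx hx1

theorem exists_vinf : ∃ vi : Place K E, vi.ord x = -1 ∧ ∀ v, v ≠ vi → 0 ≤ v.ord x := by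
  obtain ⟨vi, hvi⟩ := eq_single_of_degree_one (poles_nonneg x)
    (by rw [degree_poles hx, hx1]; rfl)
  refine ⟨vi, ?_, fun v hv => ?_⟩
  · have := DFunLike.congr_fun hvi vi
    simp at this; omega
  · have := DFunLike.congr_fun hvi v
    simp [Finsupp.single_eq_of_ne hv] at this; omega

theorem exists_zero (v : Place K E) (hv : 0 ≤ v.ord x) :
    ∃ c : K, v.ord (x - algebraMap K E c) = 1 ∧
      ∀ v', v' ≠ v → 0 ≤ v'.ord x → v'.ord (x - algebraMap K E c) = 0 := by
  obtain ⟨c, hc⟩ := exists_ord_sub_pos v hx hv
  have ht : Transcendental K (x - algebraMap K E c) := transcendental_of_ord_pos v hc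
  have hd := degree_zeros ht
  rw [adjoin_sub_algebraMap, hx1] at hd
  obtain ⟨v₀, hv₀⟩ := eq_single_of_degree_one (poles_nonneg _) (by rw [hd]; rfl)
  have hval : ∀ w : Place K E, max 0 (w.ord (x - algebraMap K E c))
      = Finsupp.single v₀ (1 : ℤ) w := fun w => by
    have := DFunLike.congr_fun hv₀ w
    simpa [w.ord_inv] using this
  have hvv : v = v₀ := by
    by_contra hne
    have := hval v
    rw [Finsupp.single_eq_of_ne hne] at this
    omega
  subst hvv
  refine ⟨c, ?_, fun v' hne hv' => ?_⟩
  · have := hval v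
    rw [Finsupp.single_eq_same] at this
    omega
  · have h1 := hval v'
    rw [Finsupp.single_eq_of_ne hne] at h1
    have h2 : 0 ≤ v'.ord (x - algebraMap K E c) := ord_nonneg v'
      (sub_mem ((mem_iff v').mpr (Or.inr hv')) (v'.algebraMap_mem' c))
    omega

omit hx hx1

section Infinity

variable {vi : Place K E} (hvi : vi.ord x = -1) (hreg : ∀ v, v ≠ vi → 0 ≤ v.ord x)

local notation "y" => algebraMap E F x

include hvi hreg

theorem ord_y_of_fiber {w : Place K F} (hw : w ∈ vi.fiber F) :
    w.ord y = -(w.ramificationIndex E : ℤ) := by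
  rw [w.ord_restrict (F := E), Place.mem_fiber.mp hw, hvi]; ring

theorem ord_y_of_not_fiber {w : Place K F} (hw : w ∉ vi.fiber F) : 0 ≤ w.ord y := by
  rw [w.ord_restrict (F := E)]
  exact mul_nonneg (Int.natCast_nonneg _) (hreg _ fun h => hw (Place.mem_fiber.mpr h))

theorem mem_L_iff {l : ℤ} {f : F} :
    f ∈ riemannRochSpace (l • poles K y) ↔
      (∀ w ∉ vi.fiber F, f ∈ ordGe w 0) ∧ f ∈ fiberGe F vi (-l) := by
  rw [mem_riemannRochSpace', mem_fiberGe]
  constructor
  · intro h
    refine ⟨fun w hw => ?_, fun w hw => ?_⟩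
    · have := h w
      have h0 := ord_y_of_not_fiber (F := F) hvi hreg hw
      simpa [max_eq_left (neg_nonpos.mpr h0)] using this
    · have := h w
      rw [Finsupp.smul_apply, poles_apply, ord_y_of_fiber (F := F) hvi hreg hw, neg_neg,
        max_eq_right (Int.natCast_nonneg _), smul_eq_mul, ← neg_mul] at this
      exact this
  · rintro ⟨h1, h2⟩ w
    by_cases hw : w ∈ vi.fiber F
    · rw [Finsupp.smul_apply, poles_apply, ord_y_of_fiber (F := F) hvi hreg hw, neg_neg,
        max_eq_right (Int.natCast_nonneg _), smul_eq_mul, ← neg_mul]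
      exact h2 w hw
    · have h0 := ord_y_of_not_fiber (F := F) hvi hreg hw
      simpa [max_eq_left (neg_nonpos.mpr h0)] using h1 w hw

theorem x_ne_zero : x ≠ 0 := fun h => by simp [h] at hvi

theorem inv_pow_mem (l : ℕ) : (y⁻¹) ^ l ∈ fiberGe F vi l := by
  rw [← map_inv₀, ← map_pow]
  exact algebraMap_mem_fiberGe (mem_ordGe_of_le vi (by rw [ord_pow, vi.ord_inv, hvi]; simp))

theorem pow_mem (l : ℕ) : y ^ l ∈ fiberGe F vi (-(l : ℤ)) := by
  rw [← map_pow]
  exact algebraMap_mem_fiberGe (mem_ordGe_of_le vi (by rw [ord_pow, hvi]; simp))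

theorem mul_mem_L {j l : ℕ} {f : F} (hf : f ∈ riemannRochSpace ((j : ℤ) • poles K y)) :
    y ^ l * f ∈ riemannRochSpace (((l + j : ℕ) : ℤ) • poles K y) := by
  rw [mem_L_iff hvi hreg] at hf ⊢
  refine ⟨fun w hw => ?_, ?_⟩
  · simpa using mul_mem_ordGe w (pow_mem_ordGe w
      (mem_ordGe_of_le w (ord_y_of_not_fiber (F := F) hvi hreg hw)) l) (hf.1 w hw)
  · refine fiberGe_anti (by push_cast; omega) (mul_mem_fiberGe (pow_mem hvi hreg l) hf.2)

omit hvi hreg

variable (F) in
/-- `B_∞ / π B_∞`. -/
abbrev Bar (vi : Place K E) : Type _ :=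
  ↥(fiberGe F vi 0) ⧸ (fiberGe F vi 1).comap (fiberGe F vi 0).subtype

theorem finrank_bar (vi : Place K E) :
    FiniteDimensional K (Bar F vi) ∧ Module.finrank K (Bar F vi) = Module.finrank E F := by
  obtain ⟨θ, γ, hγ, hθ⟩ := exists_theta (F := F) vi
  have h := isLocalBasis_powers hγ hθ rfl
  set n := Module.finrank E F
  let φ : (Fin n → K) →ₗ[K] Bar F vi :=
    { toFun := fun a => Submodule.Quotient.mk ⟨∑ i, a i • θ ^ (i : ℕ),
        sum_mem fun i _ => Submodule.smul_mem _ _ (h.mem i)⟩
      map_add' := fun a b => by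
        rw [← Submodule.Quotient.mk_add]
        exact congrArg _ (Subtype.ext (by simp [add_smul, Finset.sum_add_distrib]))
      map_smul' := fun c a => by
        rw [RingHom.id_apply, ← Submodule.Quotient.mk_smul]
        exact congrArg _ (Subtype.ext (by simp [smul_smul, Finset.smul_sum])) }
  have hinj : Function.Injective φ := by
    rw [injective_iff_map_eq_zero]
    intro a ha
    exact h.indep a ((Submodule.Quotient.mk_eq_zero _).mp ha :)
  have hsurj : Function.Surjective φ := by
    intro z
    obtain ⟨⟨f, hf⟩, rfl⟩ := Submodule.Quotient.mk_surjective _ z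
    choose a ha using fun i => exists_sub_mem_ordGe_one vi
      ((mem_ordGe_zero vi).mp (h.repr_mem rfl hf i))
    refine ⟨a, (Submodule.Quotient.eq _).mpr ?_⟩
    show (∑ i, a i • θ ^ (i : ℕ)) - f ∈ fiberGe F vi 1
    have hs := (h.basis rfl).sum_repr f
    simp only [h.coe_basis, Algebra.smul_def] at hs
    rw [← neg_mem_iff, neg_sub]
    conv => arg 2; arg 1; rw [← hs]
    rw [← Finset.sum_sub_distrib]
    refine sum_mem fun i _ => ?_
    have := mul_mem_fiberGe (algebraMap_mem_fiberGe (F := F) (ha i)) (h.mem i)
    rw [add_zero, map_sub, ← IsScalarTower.algebraMap_apply, sub_mul] at this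
    rwa [Algebra.smul_def]
  let e := LinearEquiv.ofBijective φ ⟨hinj, hsurj⟩
  exact ⟨e.finiteDimensional, by rw [← e.finrank_eq, Module.finrank_pi, Fintype.card_fin]⟩

include hvi hreg

/-- The leading coefficient map on `L(l (y)_∞)`. -/
def leadMap (l : ℕ) : riemannRochSpace ((l : ℤ) • poles K y) →ₗ[K] Bar F vi :=
  (Submodule.mkQ _).comp (LinearMap.codRestrict (fiberGe F vi 0)
    ((LinearMap.mulLeft K ((y⁻¹) ^ l)).comp (riemannRochSpace _).subtype)
    (fun f => by
      have := mul_mem_fiberGe (inv_pow_mem (F := F) hvi hreg l) ((mem_L_iff hvi hreg).mp f.2).2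
      simpa using this))

theorem leadMap_eq_zero_iff {l : ℕ} {f : riemannRochSpace ((l : ℤ) • poles K y)} :
    leadMap (F := F) hvi hreg l f = 0 ↔
      (f : F) ∈ riemannRochSpace (((l : ℤ) - 1) • poles K y) := by
  have hy : y ≠ 0 := by simpa using x_ne_zero hvi hreg
  rw [mem_L_iff hvi hreg]
  have h := (mem_L_iff hvi hreg).mp f.2
  constructor
  · intro h0
    replace h0 : (y⁻¹) ^ l * (f : F) ∈ fiberGe F vi 1 :=
      (Submodule.Quotient.mk_eq_zero ((fiberGe F vi 1).comap (fiberGe F vi 0).subtype)).mp h0
    refine ⟨h.1, ?_⟩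
    have := mul_mem_fiberGe (pow_mem (F := F) hvi hreg l) h0
    rw [← mul_assoc, ← mul_pow, mul_inv_cancel₀ hy, one_pow, one_mul] at this
    exact fiberGe_anti (by omega) this
  · intro h0
    refine (Submodule.Quotient.mk_eq_zero _).mpr ?_
    show (y⁻¹) ^ l * (f : F) ∈ fiberGe F vi 1
    exact fiberGe_anti (by omega) (mul_mem_fiberGe (inv_pow_mem (F := F) hvi hreg l) h0.2)

theorem leadMap_mul {j l : ℕ} (f : riemannRochSpace ((j : ℤ) • poles K y)) :
    leadMap (F := F) hvi hreg (l + j) ⟨_, mul_mem_L hvi hreg (l := l) f.2⟩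
      = leadMap (F := F) hvi hreg j f := by
  have hy : y ≠ 0 := by simpa using x_ne_zero hvi hreg
  refine congrArg Submodule.Quotient.mk (Subtype.ext ?_)
  show (y⁻¹) ^ (l + j) * (y ^ l * (f : F)) = (y⁻¹) ^ j * (f : F)
  rw [pow_add, mul_comm ((y⁻¹) ^ l), mul_assoc, ← mul_assoc ((y⁻¹) ^ l), ← mul_pow,
    inv_mul_cancel₀ hy, one_pow, one_mul]

theorem leadMap_range_mono {j l : ℕ} (h : j ≤ l) :
    LinearMap.range (leadMap (F := F) hvi hreg j) ≤ LinearMap.range (leadMap hvi hreg l) := by
  obtain ⟨d, rfl⟩ := Nat.exists_eq_add_of_le' h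
  rintro _ ⟨f, rfl⟩
  exact ⟨_, leadMap_mul hvi hreg f⟩

theorem ell_succ (l : ℕ) :
    ell K ((l : ℤ) • poles K y) = ell K (((l : ℤ) - 1) • poles K y)
      + Module.finrank K (LinearMap.range (leadMap (F := F) hvi hreg l)) := by
  have e := LinearMap.finrank_range_add_finrank_ker (leadMap (F := F) hvi hreg l)
  have hle : riemannRochSpace (((l : ℤ) - 1) • poles K y)
      ≤ riemannRochSpace ((l : ℤ) • poles K y) := riemannRochSpace_mono
    (Finsupp.le_def.mpr fun w => by simp [sub_mul])
  have hk : LinearMap.ker (leadMap (F := F) hvi hreg l) =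
      (riemannRochSpace (((l : ℤ) - 1) • poles K y)).comap
        (riemannRochSpace ((l : ℤ) • poles K y)).subtype := by
    ext f
    simp [leadMap_eq_zero_iff]
  rw [hk, (Submodule.comapSubtypeEquivOfLe hle).finrank_eq] at e
  unfold ell
  omega

/-- An adapted basis of the flag of leading spaces. -/
theorem exists_adapted :
    ∃ (m : Fin (Module.finrank E F) → ℕ) (b : Fin (Module.finrank E F) → Bar F vi),
      LinearIndependent K b ∧ (∀ i, b i ∈ LinearMap.range (leadMap hvi hreg (m i))) ∧
      ∀ l, LinearMap.range (leadMap (F := F) hvi hreg l) =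
        Submodule.span K (b '' {i | m i ≤ l}) := by
  set W := fun l => LinearMap.range (leadMap (F := F) hvi hreg l) with hW
  obtain ⟨hfin, hdim⟩ := finrank_bar (F := F) vi
  have hmono : ∀ {j l : ℕ}, j ≤ l → W j ≤ W l := fun h => leadMap_range_mono hvi hreg h
  have hstep : ∀ l, ∃ (s : Set (Bar F vi)) (f : Bar F vi → ℕ),
      LinearIndepOn K id s ∧ (∀ v ∈ s, v ∈ W (f v) ∧ f v ≤ l) ∧
      ∀ j ≤ l, Submodule.span K {v | v ∈ s ∧ f v ≤ j} = W j := by
    intro l
    induction l with
    | zero =>
      obtain ⟨s, hsub, -, hspan, hli⟩ := exists_linearIndepOn_id_extension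
        (linearIndepOn_empty K id) (Set.empty_subset (W 0 : Set (Bar F vi)))
      refine ⟨s, fun _ => 0, hli, fun v hv => ⟨hsub hv, le_rfl⟩, fun j hj => ?_⟩
      obtain rfl : j = 0 := by omega
      simp only [le_refl, and_true, Set.ofPred_mem_eq]
      exact le_antisymm (Submodule.span_le.mpr hsub) (fun v hv => hspan hv)
    | succ l ih =>
      obtain ⟨s, f, hli, hsW, hspan⟩ := ih
      obtain ⟨t, htsub, hst, htspan, htli⟩ := exists_linearIndepOn_id_extension hli
        (show s ⊆ (W (l + 1) : Set (Bar F vi)) from fun v hv =>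
          hmono (show f v ≤ l + 1 by have := (hsW v hv).2; omega) (hsW v hv).1)
      refine ⟨t, fun v => if v ∈ s then f v else l + 1, htli, fun v hv => ?_, fun j hj => ?_⟩
      · by_cases hs : v ∈ s
        · simp only [if_pos hs]
          exact ⟨(hsW v hs).1, by have := (hsW v hs).2; omega⟩
        · simp only [if_neg hs]
          exact ⟨htsub hv, le_rfl⟩
      · rcases Nat.lt_or_ge j (l + 1) with hj' | hj'
        · rw [← hspan j (by omega)]
          congr 1
          ext v
          simp only [Set.mem_ofPred_eq]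
          constructor
          · rintro ⟨h1, h2⟩
            by_cases hs : v ∈ s
            · exact ⟨hs, by rwa [if_pos hs] at h2⟩
            · rw [if_neg hs] at h2; omega
          · rintro ⟨h1, h2⟩
            exact ⟨hst h1, by rwa [if_pos h1]⟩
        · obtain rfl : j = l + 1 := by omega
          have : {v | v ∈ t ∧ (if v ∈ s then f v else l + 1) ≤ l + 1} = t := by
            ext v
            simp only [Set.mem_ofPred_eq, and_iff_left_iff_imp]
            intro _
            split_ifs with hs
            · have := (hsW v hs).2; omega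
            · exact le_rfl
          rw [this]
          exact le_antisymm (Submodule.span_le.mpr htsub) (fun v hv => htspan hv)
  obtain ⟨c, hc⟩ := exists_ell_eq (K := K) (F := F)
  set n := Module.finrank E F
  set L := (max c 0).toNat + 1
  have hn : (0 : ℤ) < n := by
    have := Module.finrank_pos (R := E) (M := F)
    omega
  have hdegB : Divisor.degree (poles K y) = n := by
    have hxt : Transcendental K x := transcendental_of_ord_ne_zero vi (by omega)
    rw [degree_poles (transcendental_algebraMap hxt), (finite_and_finrank_adjoin_algebraMap hxt).2]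
    have hvpol : poles K x = Finsupp.single vi 1 := by
      ext v
      rcases eq_or_ne v vi with rfl | hv
      · simp [hvi]
      · have := hreg v hv
        simp [Finsupp.single_eq_of_ne hv]; omega
    have h1 := degree_poles hxt
    rw [hvpol, Divisor.degree_single, deg_eq_one vi] at h1
    have : Module.finrank K⟮x⟯ E = 1 := by omega
    rw [this, one_mul]
  have htop : ∀ l, L ≤ l → W l = ⊤ := fun l hl => by
    have h1 := ell_succ (F := F) hvi hreg l
    have hl1 : c ≤ (l : ℤ) - 1 := by omega
    have hcl : ∀ z : ℤ, c ≤ z → 0 ≤ z → c ≤ Divisor.degree (z • poles K y) := fun z hz hz0 => by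
      rw [map_zsmul, hdegB, smul_eq_mul]
      exact hz.trans (le_mul_of_one_le_right hz0 (by omega))
    rw [hc _ (hcl _ (by omega) (by omega)), hc _ (hcl _ hl1 (by omega)), map_zsmul, map_zsmul,
      hdegB, smul_eq_mul, smul_eq_mul, sub_mul, one_mul] at h1
    have h2 : Module.finrank K (W l) = n := by
      simp only [W] at h1 ⊢; omega
    exact Submodule.eq_top_of_finrank_eq (by rw [h2, hdim])
  obtain ⟨s, f, hli, hsW, hspan⟩ := hstep L
  have hs_span : Submodule.span K s = ⊤ := by
    rw [← htop L le_rfl, ← hspan L le_rfl]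
    congr 1
    ext v
    exact ⟨fun h => ⟨h, (hsW v h).2⟩, fun h => h.1⟩
  have hli' : LinearIndependent K ((↑) : s → Bar F vi) := hli
  have hsfin : s.Finite := by
    have := hli'.finite
    exact Set.toFinite s
  have := hsfin.fintype
  let bs : Module.Basis s K (Bar F vi) := Module.Basis.mk hli'
    (by rw [Subtype.range_coe_subtype, Set.ofPred_mem_eq, hs_span])
  have hcard : Fintype.card s = n := by rw [← hdim, Module.finrank_eq_card_basis bs]
  let e : Fin n ≃ s := (Fintype.equivFinOfCardEq hcard).symm
  refine ⟨fun i => f (e i), fun i => (e i : Bar F vi), hli'.comp e e.injective,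
    fun i => (hsW _ (e i).2).1, fun l => ?_⟩
  have himg : (fun i => (e i : Bar F vi)) '' {i | f (e i) ≤ l} = {v | v ∈ s ∧ f v ≤ l} := by
    ext v
    constructor
    · rintro ⟨i, hi, rfl⟩
      exact ⟨(e i).2, hi⟩
    · rintro ⟨hv, hv'⟩
      exact ⟨e.symm ⟨v, hv⟩, by simpa using hv', by simp⟩
  rw [himg]
  rcases le_total l L with hl | hl
  · exact (hspan l hl).symm
  · refine (htop l hl).trans ?_
    rw [← hs_span]
    congr 1
    ext v
    exact ⟨fun h => ⟨h, by have := (hsW v h).2; omega⟩, fun h => h.1⟩

/-- A reduced basis. -/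
theorem exists_reduced :
    ∃ (m : Fin (Module.finrank E F) → ℕ) (u : Fin (Module.finrank E F) → F),
      IsLocalBasis vi (fun i => (y⁻¹) ^ m i * u i) ∧
      (∀ i, ∀ w ∉ vi.fiber F, u i ∈ ordGe w 0) ∧
      (∀ g : F, (∀ w ∉ vi.fiber F, g ∈ ordGe w 0) →
        ∃ p : Fin (Module.finrank E F) → K[X], g = ∑ i, aeval y (p i) * u i) ∧
      ∀ l : ℕ, ell K ((l : ℤ) • poles K y) = ∑ i, max 0 ((l : ℤ) + 1 - m i) := by
  obtain ⟨m, b, hb, hbW, hW⟩ := exists_adapted (F := F) hvi hreg
  choose pre hpre using hbW
  refine ⟨m, fun i => (pre i : F), ⟨fun i => ?_, fun a ha => ?_⟩,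
    fun i => ((mem_L_iff hvi hreg).mp (pre i).2).1, ?_, ?_⟩
  · have := mul_mem_fiberGe (inv_pow_mem (F := F) hvi hreg (m i))
      ((mem_L_iff hvi hreg).mp (pre i).2).2
    simpa using this
  · have hz : ∑ i, a i • b i = 0 := by
      let z : Fin (Module.finrank E F) → ↥(fiberGe F vi 0) := fun i =>
        ⟨(y⁻¹) ^ m i * (pre i : F), by
          have := mul_mem_fiberGe (inv_pow_mem (F := F) hvi hreg (m i))
            ((mem_L_iff hvi hreg).mp (pre i).2).2
          simpa using this⟩
      have hb' : ∀ i, b i = Submodule.mkQ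
          ((fiberGe F vi 1).comap (fiberGe F vi 0).subtype) (z i) := fun i => (hpre i).symm
      rw [Finset.sum_congr rfl fun i _ => by rw [hb' i, ← map_smul], ← map_sum,
        Submodule.mkQ_apply, Submodule.Quotient.mk_eq_zero, Submodule.mem_comap]
      simpa [z] using ha
    exact funext (Fintype.linearIndependent_iff.mp hb a hz)
  · have key : ∀ (l : ℕ) (g : F), g ∈ riemannRochSpace (((l : ℤ) - 1) • poles K y) →
        ∃ p : Fin (Module.finrank E F) → K[X], g = ∑ i, aeval y (p i) * (pre i : F) := by
      intro l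
      induction l with
      | zero =>
        intro g hg
        refine ⟨0, ?_⟩
        have h0 : g = 0 := by
          have hxt : Transcendental K x := transcendental_of_ord_ne_zero vi (by omega)
          have hneg : Divisor.degree ((((0 : ℕ) : ℤ) - 1) • poles K y) < 0 := by
            rw [map_zsmul, degree_poles (transcendental_algebraMap hxt),
              (finite_and_finrank_adjoin_algebraMap hxt).2, smul_eq_mul]
            have := finiteDimensional_adjoin hxt
            have h1 := Module.finrank_pos (R := K⟮x⟯) (M := E)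
            have h2 := Module.finrank_pos (R := E) (M := F)
            have := Nat.mul_pos h1 h2
            push_cast
            nlinarith
          have := ell_eq_zero_of_degree_neg hneg
          simp only [ell, Nat.cast_eq_zero, Submodule.finrank_eq_zero] at this
          exact (Submodule.mem_bot K).mp (this ▸ hg)
        simp [h0]
      | succ l ih =>
        intro g hg
        rw [Nat.cast_succ, add_sub_cancel_right] at hg
        have hmem : leadMap (F := F) hvi hreg l ⟨g, hg⟩ ∈
            Submodule.span K (b '' {i | m i ≤ l}) :=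
          hW l ▸ LinearMap.mem_range_self _ _
        obtain ⟨a, ha, hga⟩ := (Finsupp.mem_span_image_iff_linearCombination K).mp hmem
        rw [Finsupp.linearCombination_apply, Finsupp.sum_fintype _ _ (by simp)] at hga
        have hsupp : ∀ i, a i ≠ 0 → m i ≤ l := fun i hi =>
          ha (Finsupp.mem_support_iff.mpr hi)
        have hterm : ∀ i, a i • (y ^ (l - m i) * (pre i : F)) ∈
            riemannRochSpace ((l : ℤ) • poles K y) := fun i => by
          by_cases hi : a i = 0
          · simp [hi]
          · refine Submodule.smul_mem _ _ ?_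
            have := mul_mem_L hvi hreg (l := l - m i) (pre i).2
            rwa [Nat.sub_add_cancel (hsupp i hi)] at this
        have hlead : ∀ i, leadMap (F := F) hvi hreg l ⟨_, hterm i⟩ = a i • b i := fun i => by
          by_cases hi : a i = 0
          · refine Eq.trans ((leadMap_eq_zero_iff hvi hreg).mpr ?_) (by rw [hi, zero_smul])
            simp [hi]
          · have hle := hsupp i hi
            obtain ⟨d, rfl⟩ := Nat.exists_eq_add_of_le' hle
            have e : leadMap (F := F) hvi hreg (d + m i)
                ⟨_, mul_mem_L hvi hreg (l := d) (pre i).2⟩ = b i := by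
              rw [leadMap_mul, hpre]
            have : (⟨_, hterm i⟩ : riemannRochSpace (((d + m i : ℕ) : ℤ) • poles K y))
                = a i • ⟨_, mul_mem_L hvi hreg (l := d) (pre i).2⟩ :=
              Subtype.ext (by simp)
            rw [this, map_smul, e]
        have hdiff : g - ∑ i, a i • (y ^ (l - m i) * (pre i : F)) ∈
            riemannRochSpace (((l : ℤ) - 1) • poles K y) := by
          have h1 : leadMap (F := F) hvi hreg l (⟨g, hg⟩ - ∑ i, ⟨_, hterm i⟩) = 0 := by
            rw [map_sub, map_sum, Finset.sum_congr rfl fun i _ => hlead i, hga, sub_self]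
          simpa using (leadMap_eq_zero_iff hvi hreg).mp h1
        obtain ⟨p, hp⟩ := ih _ hdiff
        refine ⟨fun i => p i + C (a i) * X ^ (l - m i), ?_⟩
        rw [sub_eq_iff_eq_add] at hp
        rw [hp, ← Finset.sum_add_distrib]
        refine Finset.sum_congr rfl fun i _ => ?_
        rw [map_add, map_mul, map_pow, aeval_C, aeval_X, Algebra.smul_def]
        ring
    intro g hg
    set l := (vi.fiber F).sup fun w => (w.ord g).natAbs
    refine key (l + 1) g ((mem_L_iff hvi hreg).mpr ⟨hg, mem_fiberGe.mpr fun w hw => ?_⟩)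
    refine mem_ordGe_of_le w ?_
    have h1 : (w.ord g).natAbs ≤ l := Finset.le_sup (f := fun w => (w.ord g).natAbs) hw
    have h2 : (1 : ℤ) ≤ w.ramificationIndex E := by exact_mod_cast e_pos (F := E) w
    push_cast
    rw [add_sub_cancel_right, neg_mul]
    have : (l : ℤ) ≤ (l : ℤ) * w.ramificationIndex E := le_mul_of_one_le_right (by omega) h2
    omega
  · intro l
    have hrange : ∀ l, (Module.finrank K (LinearMap.range (leadMap (F := F) hvi hreg l)) : ℤ)
        = ∑ i, if m i ≤ l then (1 : ℤ) else 0 := by
      intro l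
      rw [hW l, Set.image_eq_range, finrank_span_eq_card (b := fun i : {i | m i ≤ l} => b i)
        (hb.comp _ Subtype.val_injective), Finset.sum_boole, Fintype.card_subtype]
      simp
    induction l with
    | zero =>
      have h1 := ell_succ (F := F) hvi hreg 0
      rw [hrange 0] at h1
      have hxt : Transcendental K x := transcendental_of_ord_ne_zero vi (by omega)
      have hneg : Divisor.degree ((((0 : ℕ) : ℤ) - 1) • poles K y) < 0 := by
        rw [map_zsmul, degree_poles (transcendental_algebraMap hxt),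
          (finite_and_finrank_adjoin_algebraMap hxt).2, smul_eq_mul]
        have := finiteDimensional_adjoin hxt
        have h1 := Module.finrank_pos (R := K⟮x⟯) (M := E)
        have h2 := Module.finrank_pos (R := E) (M := F)
        have := Nat.mul_pos h1 h2
        push_cast
        nlinarith
      rw [h1, ell_eq_zero_of_degree_neg hneg, zero_add]
      refine Finset.sum_congr rfl fun i _ => ?_
      split_ifs <;> omega
    | succ l ih =>
      have h1 := ell_succ (F := F) hvi hreg (l + 1)
      rw [hrange, show ((l + 1 : ℕ) : ℤ) - 1 = l by omega, ih] at h1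
      rw [h1, ← Finset.sum_add_distrib]
      refine Finset.sum_congr rfl fun i _ => ?_
      split_ifs <;> omega

end Infinity

variable (F) in
include hx hx1 in
/-- `deg (dy) = 2 g - 2` for a function `y` of degree one on a subfield. -/
theorem degree_dx :
    Divisor.degree (canonicalDivisorOf (D_ne_zero (K := K) (transcendental_algebraMap (F' := F) hx)))
      = 2 * (genusFF K F : ℤ) - 2 := by
  obtain ⟨vi, hvi, hreg⟩ := exists_vinf hx hx1
  obtain ⟨m, u, hloc, hmem, hspan, hell⟩ := exists_reduced (F := F) hvi hreg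
  have hy := transcendental_algebraMap (F' := F) hx
  have hx0 : x ≠ 0 := x_ne_zero hvi hreg
  have hy0 : algebraMap E F x ≠ 0 := by simpa using hx0
  obtain ⟨n, hn⟩ : ∃ n : ℕ, n = Module.finrank E F := ⟨_, rfl⟩
  -- the sum of the `m i`
  have hdegB : Divisor.degree (poles K (algebraMap E F x)) = n := by
    rw [degree_poles hy, (finite_and_finrank_adjoin_algebraMap hx).2, hx1, one_mul, hn]
  obtain ⟨c, hc⟩ := exists_ell_eq (K := K) (F := F)
  have hnpos : (0 : ℤ) < n := by
    have := Module.finrank_pos (R := E) (M := F)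
    omega
  have hm : ∑ i, (m i : ℤ) = n - 1 + genusFF K F := by
    set l := (max c 0).toNat + ∑ i, m i
    have hl : c ≤ (l : ℤ) := by omega
    have h1 := hell l
    rw [hc _ (by rw [map_zsmul, hdegB, smul_eq_mul]
                 exact hl.trans (le_mul_of_one_le_right (by omega) (by omega))),
      map_zsmul, hdegB, smul_eq_mul] at h1
    have h2 : ∀ i, max 0 ((l : ℤ) + 1 - m i) = (l : ℤ) + 1 - m i := fun i => by
      have : m i ≤ ∑ i, m i := Finset.single_le_sum (f := m) (by simp) (Finset.mem_univ i)
      omega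
    simp only [h2, Finset.sum_sub_distrib, Finset.sum_const, Finset.card_univ, Fintype.card_fin,
      nsmul_eq_mul] at h1
    have : (Module.finrank E F : ℤ) = n := by rw [hn]
    push_cast [this] at h1 ⊢
    linarith
  -- `u` and its twist
  have hLI : LinearIndependent E u := by
    rw [Fintype.linearIndependent_iff]
    intro g hg i
    have hb := Fintype.linearIndependent_iff.mp hloc.linearIndependent
      (fun i => g i * x ^ m i) (by
        rw [← hg]
        refine Finset.sum_congr rfl fun i _ => ?_
        simp only [Algebra.smul_def, map_mul, map_pow, inv_pow]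
        field_simp) i
    exact (mul_eq_zero.mp hb).resolve_right (pow_ne_zero _ hx0)
  have hfin : ∀ v, v ≠ vi → IsLocalBasis v u := by
    intro v hv
    obtain ⟨c₀, hc₀, hc₀'⟩ := exists_zero hx hx1 v (hreg v hv)
    refine ⟨fun i => mem_fiberGe_zero.mpr fun w hw => hmem i w fun hw' => hv
      ((Place.mem_fiber.mp hw).symm.trans (Place.mem_fiber.mp hw')), fun a ha => ?_⟩
    set z := algebraMap E F (x - algebraMap K E c₀)
    have hz0 : z ≠ 0 := by
      simp only [z, ne_eq, map_eq_zero]
      intro h
      simp [h] at hc₀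
    obtain ⟨p, hp⟩ := hspan ((∑ i, a i • u i) / z) fun w hw => by
      rw [div_eq_mul_inv]
      have hu : ∑ i, a i • u i ∈ ordGe w 0 :=
        sum_mem fun i _ => Submodule.smul_mem _ _ (hmem i w hw)
      by_cases hwv : w ∈ v.fiber F
      · refine ordGe_anti w ?_ (mul_mem_ordGe w (mem_fiberGe.mp ha w hwv)
          (mem_ordGe_of_le w (le_refl (w.ord z⁻¹))))
        rw [w.ord_inv, w.ord_restrict (F := E), Place.mem_fiber.mp hwv, hc₀]
        ring_nf; exact le_rfl
      · refine ordGe_anti w ?_ (mul_mem_ordGe w hu (mem_ordGe_of_le w (le_refl (w.ord z⁻¹))))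
        rw [w.ord_inv, w.ord_restrict (F := E),
          hc₀' _ (fun h => hwv (Place.mem_fiber.mpr h))
            (hreg _ (fun h => hw (Place.mem_fiber.mpr h)))]
        simp
    rw [div_eq_iff hz0] at hp
    have h0 := Fintype.linearIndependent_iff.mp hLI
      (fun i => aeval x (C (a i) - (X - C c₀) * p i)) (by
        have h4 : ∀ i, aeval x (C (a i) - (X - C c₀) * p i) • u i
            = a i • u i - aeval (algebraMap E F x) (p i) * u i * z := fun i => by
          simp only [Algebra.smul_def, map_sub, map_mul, aeval_C, aeval_X, z,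
            aeval_algebraMap_apply, ← IsScalarTower.algebraMap_apply]
          ring
        simp only [h4, Finset.sum_sub_distrib, ← Finset.sum_mul, ← hp, sub_self])
    funext i
    have hq : C (a i) - (X - C c₀) * p i = 0 := transcendental_iff.mp hx _ (h0 i)
    simpa using congrArg (Polynomial.eval c₀) hq
  -- the discriminant
  have hd0 : Algebra.discr E u ≠ 0 := by
    have := discr_ne_zero' vi (Module.Basis.mk hLI
      (by rw [hLI.span_eq_top_of_card_eq_finrank' (by simp)]))
    rwa [Module.Basis.coe_mk] at this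
  have hprod : ∏ i, (x⁻¹) ^ m i ≠ (0 : E) :=
    Finset.prod_ne_zero_iff.mpr fun i _ => pow_ne_zero _ (inv_ne_zero hx0)
  have hdinf : ∑ w ∈ vi.fiber F, ((w.ramificationIndex E : ℤ) - 1)
      = 2 * ∑ i, (m i : ℤ) + vi.ord (Algebra.discr E u) := by
    rw [← hloc.ord_discr rfl]
    have h := Algebra.discr_of_matrix_vecMul (A := E) u
      (Matrix.diagonal fun i => (x⁻¹) ^ m i)
    have hvm : Matrix.vecMul u ((Matrix.diagonal fun i => (x⁻¹) ^ m i).map (algebraMap E F))
        = fun i => (algebraMap E F x)⁻¹ ^ m i * u i := funext fun i => by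
      rw [Matrix.diagonal_map (map_zero _), Matrix.vecMul_diagonal]
      simp [mul_comm]
    rw [hvm, Matrix.det_diagonal] at h
    rw [h, vi.ord_mul (pow_ne_zero _ hprod) hd0, ord_pow,
      ord_finsetProd vi _ _ fun i _ => pow_ne_zero _ (inv_ne_zero hx0)]
    simp [ord_pow, vi.ord_inv, hvi]
  -- the pushforward of the canonical divisor
  set D := canonicalDivisorOf (D_ne_zero (K := K) hy)
  have hDw : ∀ w : Place K F, D w = if w ∈ vi.fiber F then -(w.ramificationIndex E : ℤ) - 1
      else (w.ramificationIndex E : ℤ) - 1 := fun w => by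
    rw [canonicalDivisorOf_apply]
    have he : (1 : ℤ) ≤ w.ramificationIndex E := by exact_mod_cast e_pos (F := E) w
    split_ifs with hw
    · rw [ordDifferential_D_of_ord_neg w (by rw [ord_y_of_fiber hvi hreg hw]; omega),
        ord_y_of_fiber hvi hreg hw]
    · have hne : w.restrict E ≠ vi := fun h => hw (Place.mem_fiber.mpr h)
      obtain ⟨c₀, hc₀, -⟩ := exists_zero hx hx1 _ (hreg _ hne)
      have : w.ord (algebraMap E F x - algebraMap K F c₀) = w.ramificationIndex E := by
        rw [IsScalarTower.algebraMap_apply K E F, ← map_sub, w.ord_restrict (F := E), hc₀,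
          mul_one]
      rw [ordDifferential_D w c₀ (by omega), this]
  have hinert : ∀ w : Place K F, w.inertiaDeg E = 1 := fun w => by
    have := w.deg_restrict_mul_inertiaDeg (F := E)
    rwa [deg_eq_one, deg_eq_one, one_mul] at this
  have hpush : ∀ v, Divisor.pushforward E D v = ∑ w ∈ v.fiber F, D w := fun v => by
    rw [Divisor.pushforward_apply, ← Finset.sum_filter]
    simp only [hinert, Nat.cast_one, mul_one]
    refine Finset.sum_subset
      (fun w hw => Place.mem_fiber.mpr (Finset.mem_filter.mp hw).2) fun w hw hnot => ?_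
    rw [Finset.mem_filter, not_and'] at hnot
    exact Finsupp.notMem_support_iff.mp (hnot (Place.mem_fiber.mp hw))
  have key : Divisor.pushforward E D = div K (Algebra.discr E u)
      + Finsupp.single vi (2 * ∑ i, (m i : ℤ) - 2 * n) := by
    ext v
    rw [hpush, Finsupp.add_apply, div_apply]
    rcases eq_or_ne v vi with rfl | hv
    · rw [Finsupp.single_eq_same, Finset.sum_congr rfl fun w hw => by rw [hDw, if_pos hw]]
      have h1 : ∑ w ∈ v.fiber F, (-(w.ramificationIndex E : ℤ) - 1)
          = ∑ w ∈ v.fiber F, ((w.ramificationIndex E : ℤ) - 1)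
            - 2 * ∑ w ∈ v.fiber F, (w.ramificationIndex E : ℤ) := by
        rw [Finset.mul_sum, ← Finset.sum_sub_distrib]
        exact Finset.sum_congr rfl fun w _ => by ring
      have h2 : ∑ w ∈ v.fiber F, (w.ramificationIndex E : ℤ) = n := by
        rw [hn, ← ramification_sum (F := F) v, Nat.cast_sum]
      rw [h1, h2, hdinf]
      ring
    · rw [Finsupp.single_eq_of_ne hv, add_zero, (hfin v hv).ord_discr rfl]
      refine Finset.sum_congr rfl fun w hw => ?_
      rw [hDw, if_neg fun h => hv ((Place.mem_fiber.mp hw).symm.trans (Place.mem_fiber.mp h))]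
  rw [← Divisor.degree_pushforward (F := E) D, key, map_add, degree_div, Divisor.degree_single,
    deg_eq_one vi, hm]
  push_cast
  ring

omit hx hx1

/-- For a transcendental `y`, `deg (dy) = 2 g - 2`. -/
theorem degree_canonicalDivisor_D {y : F} (hy : Transcendental K y) :
    Divisor.degree (canonicalDivisorOf (D_ne_zero (K := K) hy)) = 2 * (genusFF K F : ℤ) - 2 := by
  have := finiteDimensional_adjoin hy
  have hgen : Transcendental K (AdjoinSimple.gen K y) := fun h =>
    hy (IsAlgebraic.algebraMap (A := F) h)
  have htop : (K⟮AdjoinSimple.gen K y⟯ : IntermediateField K K⟮y⟯) = ⊤ := by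
    apply IntermediateField.lift_injective K⟮y⟯
    rw [IntermediateField.lift_adjoin_simple, IntermediateField.lift_top]
    rfl
  have h1 : Module.finrank (K⟮AdjoinSimple.gen K y⟯ : IntermediateField K K⟮y⟯) K⟮y⟯ = 1 := by
    rw [htop, IntermediateField.finrank_top]
  have : IsFunctionField K K⟮y⟯ :=
    haveI : Module.Free (K⟮AdjoinSimple.gen K y⟯ : IntermediateField K K⟮y⟯) K⟮y⟯ :=
      Module.Free.of_divisionRing _ _
    haveI := Module.finite_of_finrank_eq_succ h1
    isFunctionField_of_finite hgen
  exact degree_dx F hgen h1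

/-- The canonical genus is `genusFF`. -/
theorem genus_eq_genusFF : genus K F = genusFF K F := by
  obtain ⟨y, hy, -⟩ := IsFunctionField.exists_finite (K := K) (F := F)
  rw [genus_eq_of_dx hy, degree_canonicalDivisor_D hy]
  omega

end Fermat.Agent.FF
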