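import Fermat.Agent.FF.Bound

/-!
# Riemann-Roch spaces and the degree of principal divisors
-/

set_option autoImplicit false

noncomputable section

open AlgebraicCurve Polynomial IntermediateField

namespace Fermat.Agent.FF

set_option linter.unusedSectionVars false

variable {K F : Type*} [Field K] [Field F] [Algebra K F] [IsFunctionField K F]

variable (K) in
/-- The divisor of a function. -/
def div (f : F) : Divisor K F :=
  Finsupp.onFinset (finite_support (K := K) f).toFinset (fun v => v.ord f)
    (fun _v hv => (finite_support (K := K) f).mem_toFinset.mpr hv)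

@[simp] theorem div_apply (f : F) (v : Place K F) : div K f v = v.ord f := rfl

@[simp] theorem div_one : div K (1 : F) = 0 := by ext v; simp

theorem div_mul {f g : F} (hf : f ≠ 0) (hg : g ≠ 0) : div K (f * g) = div K f + div K g := by
  ext v; simp [v.ord_mul hf hg]

theorem div_inv (f : F) : div K f⁻¹ = -div K f := by
  ext v; simp [v.ord_inv]

variable (K) in
/-- The divisor of poles of a function. -/
def poles (f : F) : Divisor K F :=
  Finsupp.onFinset (finite_support (K := K) f).toFinset (fun v => max 0 (-v.ord f))
    (fun v hv => (finite_support (K := K) f).mem_toFinset.mpr (by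
      simp only [Set.mem_ofPred_eq]; intro h; simp [h] at hv))

@[simp] theorem poles_apply (f : F) (v : Place K F) : poles K f v = max 0 (-v.ord f) := rfl

theorem poles_nonneg (f : F) : 0 ≤ poles K f := Finsupp.le_def.mpr fun v => by simp

theorem div_eq_poles_sub (f : F) : div K f = poles K f⁻¹ - poles K f := by
  ext v; simp only [div_apply, Finsupp.sub_apply, poles_apply, v.ord_inv]; omega

theorem mem_riemannRochSpace' {D : Divisor K F} {f : F} :
    f ∈ riemannRochSpace D ↔ ∀ v : Place K F, f ∈ ordGe v (-D v) := by
  simp only [mem_riemannRochSpace_iff, mem_ordGe]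

theorem riemannRochSpace_mono {D E : Divisor K F} (h : D ≤ E) :
    riemannRochSpace D ≤ riemannRochSpace E := fun f hf => by
  rw [mem_riemannRochSpace'] at hf ⊢
  exact fun v => ordGe_anti v (neg_le_neg (Finsupp.le_def.mp h v)) (hf v)

theorem degree_nonneg {D : Divisor K F} (h : 0 ≤ D) : 0 ≤ Divisor.degree D := by
  induction D using Finsupp.induction with
  | zero => simp
  | single_add v n E hv hn ih =>
    have h1 : 0 ≤ n := by
      have := Finsupp.le_def.mp h v
      simpa [Finsupp.notMem_support_iff.mp hv] using this
    rw [map_add, Divisor.degree_single]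
    refine add_nonneg (mul_nonneg h1 (Int.natCast_nonneg _)) (ih (Finsupp.le_def.mpr fun w => ?_))
    rcases eq_or_ne w v with rfl | hw
    · simp [Finsupp.notMem_support_iff.mp hv]
    · simpa [Finsupp.single_eq_of_ne hw] using Finsupp.le_def.mp h w

theorem degree_mono {D E : Divisor K F} (h : D ≤ E) : Divisor.degree D ≤ Divisor.degree E := by
  have := degree_nonneg (sub_nonneg.mpr h : (0 : Divisor K F) ≤ E - D)
  rw [map_sub] at this
  omega

/-- One step: `L(D + v) / L(D)` embeds in the residue field of `v`. -/
theorem finrank_riemannRochSpace_add_single (D : Divisor K F) (v : Place K F)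
    [hfin : FiniteDimensional K (riemannRochSpace D)] :
    FiniteDimensional K (riemannRochSpace (D + Finsupp.single v 1)) ∧
      Module.finrank K (riemannRochSpace (D + Finsupp.single v 1)) ≤
        Module.finrank K (riemannRochSpace D) + v.deg := by
  classical
  obtain ⟨t, ht0, ht⟩ := exists_ord_eq v (D v + 1)
  set D' := D + Finsupp.single v 1 with hD'
  have hmem : ∀ f : riemannRochSpace D', (f : F) * t ∈ ordGe v 0 := fun f => by
    have := mem_riemannRochSpace'.mp f.2 v
    refine ordGe_anti v ?_ (mul_mem_ordGe v this (mem_ordGe_of_le v ht.ge))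
    simp [hD']
  let φ : riemannRochSpace D' →ₗ[K] v.ResidueField :=
    (residueLin v).comp (LinearMap.codRestrict (ordGe v 0)
      ((LinearMap.mulRight K t).comp (riemannRochSpace D').subtype) hmem)
  have hle : D ≤ D' := Finsupp.le_def.mpr fun w => by
    rcases eq_or_ne w v with rfl | hw <;> simp [*]
  have hker : LinearMap.ker φ = (riemannRochSpace D).comap (riemannRochSpace D').subtype := by
    ext f
    rw [LinearMap.mem_ker, Submodule.mem_comap]
    simp only [φ, LinearMap.comp_apply, residueLin_eq_zero_iff, LinearMap.codRestrict_apply,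
      Submodule.coe_subtype, LinearMap.mulRight_apply, mem_riemannRochSpace']
    constructor
    · intro h w
      rcases eq_or_ne w v with rfl | hw
      · replace h : (f : F) * t ∈ ordGe w 1 := h
        have h2 := mul_mem_ordGe w h (mem_ordGe_of_le w (w.ord_inv t).ge)
        rw [mul_assoc, mul_inv_cancel₀ ht0, mul_one, ht] at h2
        exact ordGe_anti w (by omega) h2
      · simpa [hD', Finsupp.single_eq_of_ne hw] using mem_riemannRochSpace'.mp f.2 w
    · intro h
      show (f : F) * t ∈ ordGe v 1
      exact ordGe_anti v (by omega) (mul_mem_ordGe v (h v) (mem_ordGe_of_le v ht.ge))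
  have := finite_residueField v
  have hk : FiniteDimensional K (LinearMap.ker φ) := by
    rw [hker]
    exact (Submodule.comapSubtypeEquivOfLe (riemannRochSpace_mono hle)).symm.finiteDimensional
  have hfin' : FiniteDimensional K (riemannRochSpace D') := by
    rw [FiniteDimensional, Module.finite_def]
    refine Submodule.fg_of_fg_map_of_fg_inf_ker φ ?_ ?_
    · exact (Submodule.fg_iff_finiteDimensional _).mpr inferInstance
    · rw [top_inf_eq]; exact (Submodule.fg_iff_finiteDimensional _).mpr hk
  refine ⟨hfin', ?_⟩
  have h1 := LinearMap.finrank_range_add_finrank_ker φ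
  have h2 : Module.finrank K (LinearMap.ker φ) = Module.finrank K (riemannRochSpace D) := by
    rw [hker]
    exact (Submodule.comapSubtypeEquivOfLe (riemannRochSpace_mono hle)).finrank_eq
  have h3 : Module.finrank K (LinearMap.range φ) ≤ v.deg := Submodule.finrank_le _
  omega

theorem finrank_riemannRochSpace_add (D : Divisor K F) [FiniteDimensional K (riemannRochSpace D)]
    {P : Divisor K F} (hP : 0 ≤ P) :
    FiniteDimensional K (riemannRochSpace (D + P)) ∧
      (Module.finrank K (riemannRochSpace (D + P)) : ℤ) ≤
        Module.finrank K (riemannRochSpace D) + Divisor.degree P := by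
  induction P using Finsupp.induction with
  | zero => exact ⟨by rw [add_zero]; infer_instance, by rw [add_zero]; simp⟩
  | single_add v n E hv hn ih =>
    have h1 : 0 ≤ n := by
      have := Finsupp.le_def.mp hP v
      simpa [Finsupp.notMem_support_iff.mp hv] using this
    have hE : 0 ≤ E := Finsupp.le_def.mpr fun w => by
      rcases eq_or_ne w v with rfl | hw
      · simp [Finsupp.notMem_support_iff.mp hv]
      · simpa [Finsupp.single_eq_of_ne hw] using Finsupp.le_def.mp hP w
    obtain ⟨k, rfl⟩ := Int.eq_ofNat_of_zero_le h1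
    clear hP hn h1
    induction k with
    | zero => rw [Nat.cast_zero, Finsupp.single_zero, zero_add]; exact ih hE
    | succ k ihk =>
      obtain ⟨hf, hb⟩ := ihk
      obtain ⟨hf', hb'⟩ := finrank_riemannRochSpace_add_single
        (D + (Finsupp.single v (k : ℤ) + E)) v
      have he : D + (Finsupp.single v ((k + 1 : ℕ) : ℤ) + E) =
          D + (Finsupp.single v (k : ℤ) + E) + Finsupp.single v 1 := by
        rw [Nat.cast_succ, Finsupp.single_add]; abel
      rw [he]
      refine ⟨hf', ?_⟩
      rw [Nat.cast_succ, Finsupp.single_add]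
      simp only [map_add, Divisor.degree_single] at hb ⊢
      omega

/-- A regular function which vanishes somewhere is zero. -/
theorem eq_zero_of_forall_ord_nonneg {f : F} (h : ∀ v : Place K F, 0 ≤ v.ord f) (v₀ : Place K F)
    (h0 : f ∈ ordGe v₀ 1) : f = 0 := by
  by_contra hf
  obtain ⟨v, hv⟩ := exists_ord_neg_of_transcendental
    (transcendental_of_ord_pos v₀ (x := f) (by have := le_ord_of_mem_ordGe v₀ hf h0; omega))
  exact absurd (h v) (by omega)

theorem exists_place : Nonempty (Place K F) := by
  obtain ⟨x, hx, -⟩ := ‹IsFunctionField K F›.exists_finite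
  exact ⟨(exists_ord_neg_of_transcendental hx).choose⟩

instance finiteDimensional_riemannRochSpace (D : Divisor K F) :
    FiniteDimensional K (riemannRochSpace D) := by
  obtain ⟨v₀⟩ := exists_place (K := K) (F := F)
  have hbot : FiniteDimensional K (riemannRochSpace (0 : Divisor K F)) := by
    have := finite_residueField v₀
    let φ : riemannRochSpace (0 : Divisor K F) →ₗ[K] v₀.ResidueField :=
      (residueLin v₀).comp (LinearMap.codRestrict (ordGe v₀ 0)
        (riemannRochSpace (0 : Divisor K F)).subtype
        (fun f => by simpa using mem_riemannRochSpace'.mp f.2 v₀))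
    refine FiniteDimensional.of_injective φ ((injective_iff_map_eq_zero φ).mpr fun f hf => ?_)
    simp only [φ, LinearMap.comp_apply, residueLin_eq_zero_iff, LinearMap.codRestrict_apply,
      Submodule.coe_subtype] at hf
    refine Subtype.ext (eq_zero_of_forall_ord_nonneg (fun v => ?_) v₀ hf)
    rcases eq_or_ne (f : F) 0 with h | h
    · simp [h]
    · exact le_ord_of_mem_ordGe v h (by simpa using mem_riemannRochSpace'.mp f.2 v)
  let P : Divisor K F := Finsupp.mapRange (fun n : ℤ => max n 0) (by simp) D
  have := (finrank_riemannRochSpace_add (0 : Divisor K F) (P := P)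
    (Finsupp.le_def.mpr fun v => by simp [P])).1
  rw [zero_add] at this
  exact Submodule.finiteDimensional_of_le
    (riemannRochSpace_mono (Finsupp.le_def.mpr fun v => by simp [P] : D ≤ P))

variable (K) in
/-- The dimension of a Riemann-Roch space. -/
def ell (D : Divisor K F) : ℤ := Module.finrank K (riemannRochSpace D)

theorem ell_le_of_le {D E : Divisor K F} (h : D ≤ E) :
    ell K E ≤ ell K D + (Divisor.degree E - Divisor.degree D) := by
  have := (finrank_riemannRochSpace_add D (sub_nonneg.mpr h : (0 : Divisor K F) ≤ E - D)).2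
  rw [add_sub_cancel, map_sub] at this
  exact this

theorem ell_mono {D E : Divisor K F} (h : D ≤ E) : ell K D ≤ ell K E := by
  simpa [ell] using Submodule.finrank_mono (riemannRochSpace_mono h)

theorem ell_add_div {f : F} (hf : f ≠ 0) (D : Divisor K F) :
    ell K (D + div K f) = ell K D := by
  let e : riemannRochSpace (D + div K f) ≃ₗ[K] riemannRochSpace D :=
    { toFun := fun g => ⟨g * f, mem_riemannRochSpace'.mpr fun v => by
        refine ordGe_anti v ?_ (mul_mem_ordGe v (mem_riemannRochSpace'.mp g.2 v)
          (mem_ordGe_of_le v (le_refl (v.ord f))))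
        simp⟩
      invFun := fun g => ⟨g * f⁻¹, mem_riemannRochSpace'.mpr fun v => by
        refine ordGe_anti v ?_ (mul_mem_ordGe v (mem_riemannRochSpace'.mp g.2 v)
          (mem_ordGe_of_le v (v.ord_inv f).ge))
        simp [add_comm]⟩
      map_add' := fun a b => Subtype.ext (add_mul (a : F) b f)
      map_smul' := fun c a => Subtype.ext (smul_mul_assoc c (a : F) f)
      left_inv := fun a => Subtype.ext (by simp [hf])
      right_inv := fun a => Subtype.ext (by simp [hf]) }
  simp [ell, e.finrank_eq]

theorem degree_eq_sum (D : Divisor K F) (S : Finset (Place K F)) (h : D.support ⊆ S) :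
    Divisor.degree D = ∑ v ∈ S, D v * v.deg := by
  rw [Divisor.degree, Finsupp.liftAddHom_apply, Finsupp.sum_of_support_subset _ h _ (by simp)]
  rfl

theorem degree_poles_le {x : F} (hx : Transcendental K x) :
    Divisor.degree (poles K x) ≤ Module.finrank K⟮x⁻¹⟯ F := by
  have hx' : Transcendental K x⁻¹ := fun h => hx (IsAlgebraic.inv_iff.mp h)
  have hS : ∀ v ∈ (poles K x).support, 0 < v.ord x⁻¹ := fun v hv => by
    simp only [Finsupp.mem_support_iff, poles_apply] at hv
    rw [v.ord_inv]; omega
  have h := sum_ord_mul_deg_le hx' _ hS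
  rw [degree_eq_sum _ _ subset_rfl]
  calc ∑ v ∈ (poles K x).support, poles K x v * (v.deg : ℤ)
      = ((∑ v ∈ (poles K x).support, (v.ord x⁻¹).toNat * v.deg : ℕ) : ℤ) := by
        push_cast
        refine Finset.sum_congr rfl fun v hv => ?_
        have := hS v hv
        rw [v.ord_inv] at this
        rw [poles_apply, v.ord_inv]
        congr 1
        omega
    _ ≤ _ := by exact_mod_cast h

theorem adjoin_inv_eq (x : F) : K⟮x⁻¹⟯ = K⟮x⟯ := by
  refine le_antisymm (adjoin_simple_le_iff.mpr (inv_mem (mem_adjoin_simple_self K x)))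
    (adjoin_simple_le_iff.mpr ?_)
  simpa using inv_mem (mem_adjoin_simple_self K x⁻¹)

theorem finrank_adjoin_inv (x : F) :
    Module.finrank K⟮x⁻¹⟯ F = Module.finrank K⟮x⟯ F := by
  rw [adjoin_inv_eq]

/-- Many functions in `L(C + l (x)_∞)` for a suitable fixed effective `C`. -/
theorem exists_le_ell_poles {x : F} (hx : Transcendental K x) :
    ∃ C : Divisor K F, 0 ≤ C ∧
      ∀ l : ℕ, ((l : ℤ) + 1) * Module.finrank K⟮x⟯ F ≤ ell K (C + l • poles K x) := by
  have := finiteDimensional_adjoin hx
  set n := Module.finrank K⟮x⟯ F
  let u : Fin n → F := Module.finBasis K⟮x⟯ F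
  let C : Divisor K F := ∑ i, poles K (u i)
  set B := poles K x
  have hC : (0 : Divisor K F) ≤ C := Finset.sum_nonneg fun i _ => poles_nonneg _
  refine ⟨C, hC, fun l => ?_⟩
  let w : Fin (l + 1) × Fin n → F := fun a => x ^ (a.1 : ℕ) * u a.2
  have hmem : ∀ a, w a ∈ riemannRochSpace (C + l • B) := by
    intro a
    rw [mem_riemannRochSpace']
    intro v
    have h1 : -v.ord (u a.2) ≤ C v := by
      simp only [C, Finsupp.finsetSum_apply]
      refine le_trans ?_ (Finset.single_le_sum (f := fun i => poles K (u i) v)
        (fun i _ => by simp) (Finset.mem_univ a.2))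
      simp
    refine ordGe_anti v ?_ (mul_mem_ordGe v
      (pow_mem_ordGe v (mem_ordGe_of_le v (le_refl (v.ord x))) a.1)
      (mem_ordGe_of_le v (le_refl (v.ord (u a.2)))))
    have h2 : ((a.1 : ℕ) : ℤ) ≤ l := by
      have := a.1.2
      omega
    simp only [Finsupp.add_apply, Finsupp.smul_apply, nsmul_eq_mul, B, poles_apply]
    rcases le_total 0 (v.ord x) with h | h
    · rw [max_eq_left (by omega), mul_zero]
      nlinarith [Int.natCast_nonneg (a.1 : ℕ)]
    · rw [max_eq_right (by omega)]
      nlinarith
  have hli : LinearIndependent K w := by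
    rw [Fintype.linearIndependent_iff]
    intro g hg a
    let q : Fin n → K[X] := fun i => ∑ k : Fin (l + 1), monomial (k : ℕ) (g (k, i))
    let c : Fin n → K⟮x⟯ := fun i => ⟨aeval x (q i),
      algebra_adjoin_le_adjoin K _ (by
        rw [Algebra.adjoin_singleton_eq_range_aeval]; exact ⟨q i, rfl⟩)⟩
    have h0 : ∑ i, c i • u i = 0 := by
      rw [← hg, Fintype.sum_prod_type_right]
      refine Finset.sum_congr rfl fun i _ => ?_
      simp [c, q, w, Finset.sum_mul, aeval_monomial,
        Algebra.smul_def, mul_assoc]
    have := Fintype.linearIndependent_iff.mp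
      (Module.finBasis K⟮x⟯ F).linearIndependent c h0 a.2
    have h1 : q a.2 = 0 := by
      by_contra hq
      exact aeval_ne_zero hx hq (congrArg Subtype.val this)
    simpa [q, finsetSum_coeff, coeff_monomial, Fin.val_inj] using congrArg (coeff · a.1) h1
  have h2 : LinearIndependent K (fun a => (⟨w a, hmem a⟩ : riemannRochSpace (C + l • B))) :=
    LinearIndependent.of_comp (riemannRochSpace (C + l • B)).subtype hli
  have h3 := h2.fintype_card_le_finrank
  simp only [Fintype.card_prod, Fintype.card_fin] at h3
  unfold ell
  exact_mod_cast h3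

/-- `[F : K(x)]` is the degree of the polar divisor of `x`. -/
theorem degree_poles {x : F} (hx : Transcendental K x) :
    Divisor.degree (poles K x) = Module.finrank K⟮x⟯ F := by
  refine le_antisymm ((degree_poles_le hx).trans_eq (congrArg _ (finrank_adjoin_inv x))) ?_
  obtain ⟨C, hC, hCl⟩ := exists_le_ell_poles hx
  have := finiteDimensional_adjoin hx
  set n := Module.finrank K⟮x⟯ F
  set B := poles K x
  have key : ∀ l : ℕ, ((l : ℤ) + 1) * n ≤
      ell K (0 : Divisor K F) + Divisor.degree C + l * Divisor.degree B := by
    intro l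
    have h4 : (0 : Divisor K F) ≤ C + l • B := add_nonneg hC (nsmul_nonneg (poles_nonneg _) _)
    have h5 := ell_le_of_le h4
    rw [map_zero, sub_zero, map_add, map_nsmul, nsmul_eq_mul] at h5
    have h6 := hCl l
    omega
  by_contra! hlt
  have h1 := key (ell K (0 : Divisor K F) + Divisor.degree C).toNat
  have h2 := Int.self_le_toNat (ell K (0 : Divisor K F) + Divisor.degree C)
  have h4 : ((ell K (0 : Divisor K F) + Divisor.degree C).toNat : ℤ) * (Divisor.degree B + 1) ≤
      ((ell K (0 : Divisor K F) + Divisor.degree C).toNat : ℤ) * n := by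
    gcongr
    omega
  have h5 : (0 : ℤ) < n := by
    have := Module.finrank_pos (R := K⟮x⟯) (M := F)
    omega
  nlinarith

theorem ord_eq_zero_of_isAlgebraic {f : F} (h : IsAlgebraic K f) (v : Place K F) : v.ord f = 0 := by
  by_contra hv
  exact transcendental_of_ord_ne_zero v hv h

theorem degree_div (f : F) : Divisor.degree (div K f) = 0 := by
  by_cases hf : IsAlgebraic K f
  · rw [show div K f = 0 from Finsupp.ext fun v => by simp [ord_eq_zero_of_isAlgebraic hf v]]
    simp
  · have hf' : Transcendental K f⁻¹ := fun h => hf (IsAlgebraic.inv_iff.mp h)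
    rw [div_eq_poles_sub, map_sub, degree_poles hf, degree_poles hf', finrank_adjoin_inv, sub_self]

instance hasPrincipalDivisors : HasPrincipalDivisors K F :=
  ⟨fun f _ => ⟨div K f, fun _ => rfl, degree_div f⟩⟩

theorem degree_zeros {x : F} (hx : Transcendental K x) :
    Divisor.degree (poles K x⁻¹) = Module.finrank K⟮x⟯ F := by
  rw [degree_poles (fun h => hx (IsAlgebraic.inv_iff.mp h)), finrank_adjoin_inv]

end Fermat.Agent.FF
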